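import Fermat.Agent.HeckeH1.Periods
import Fermat.Agent.HeckeH1.EigenSystem
import Fermat.Prelude.Def_CuspForm_HeckeAlgebra

/-!
# Hecke eigenclasses in parabolic cohomology give points of the Hecke algebra of cusp forms
-/

set_option autoImplicit false
set_option linter.unusedSectionVars false

noncomputable section

namespace FA.Twist

open FA.HeckeH1 CongruenceSubgroup
open FA.JTorsion (FormPair heckeForm)
open scoped MatrixGroups

/-- A homomorphism into a torsion-free group is a combination of integral parabolic ones. -/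
theorem exists_par_coord {A : Type*} [CommRing A] [IsAddTorsionFree A]
    {Γ : Subgroup SL(2, ℤ)} [Γ.FiniteIndex] (z : Hom1 Γ A) (hz : z ∈ Par Γ A) :
    ∃ (n : ℕ) (c : Fin n → A) (zk : Fin n → Par Γ ℤ),
      z = ∑ k, c k • (Int.castAddHom A).comp (zk k).1 := by
  have := group_fg
  have hΓ : Group.FG Γ := inferInstance
  have : AddGroup.FG (Additive Γ) := inferInstance
  have hfg : AddGroup.FG z.range := AddGroup.fg_range z
  have : Module.Finite ℤ z.range := Module.Finite.iff_addGroup_fg.2 hfg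
  haveI : IsAddTorsionFree z.range := Function.Injective.isAddTorsionFree (f := z.range.subtype)
    (fun a b h => Subtype.ext h)
  let b := Module.finBasis ℤ z.range
  refine ⟨_, fun k => ((b k : z.range) : A),
    fun k => ⟨(b.coord k).toAddMonoidHom.comp z.rangeRestrict, fun γ s hs => ?_⟩, ?_⟩
  · show b.coord k (z.rangeRestrict (Additive.ofMul γ)) = 0
    rw [show z.rangeRestrict (Additive.ofMul γ) = 0 from Subtype.ext (hz γ s hs), map_zero]
  apply AddMonoidHom.ext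
  intro γ
  have h1 := congrArg Subtype.val (b.sum_repr (z.rangeRestrict γ))
  rw [AddSubgroup.val_finset_sum] at h1
  rw [AddMonoidHom.finsetSum_apply]
  refine h1.symm.trans (Finset.sum_congr rfl fun k _ => ?_)
  simp [mul_comm]

variable {A : Type*} [CommRing A] [IsDomain A] [CharZero A]

/-- An eigenclass on `Γ₀(M)` gives a point of the Hecke algebra. -/
theorem exists_point (M : ℕ) [NeZero M] (S : Finset ℕ) (hS : ∀ q : ℕ, q.Prime → q ∣ M → q ∈ S)
    {z : Hom1 (GamH M (⊤ : Subgroup (ZMod M)ˣ)) A} (hz : z ∈ Par (GamH M ⊤) A) (hz0 : z ≠ 0)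
    (c : ℕ → A)
    (heig : ∀ ℓ : ℕ, [Fact ℓ.Prime] → ℓ ∉ S → (Tc M ⊤ ℓ).act z = c ℓ • z) :
    ∃ χ : CuspForm.heckeAlgebra M 2 (↑S : Set ℕ) →+* A,
      ∀ (ℓ : ℕ) (hℓ : ℓ.Prime) (hℓM : ¬ ℓ ∣ M) (hℓS : ℓ ∉ (↑S : Set ℕ)),
        χ (CuspForm.heckeAlgebra.T (k := 2) hℓ hℓM hℓS) = c ℓ := by
  classical
  let M' := M * ∏ q ∈ S.filter Nat.Prime, q
  have hgood : ∀ ℓ : GP M', ¬ ℓ.1 ∣ M ∧ ℓ.1 ∉ S := fun ℓ =>
    ⟨fun h => ℓ.2.2 (h.mul_right _), fun h => ℓ.2.2 ((Finset.dvd_prod_of_mem _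
      (Finset.mem_filter.2 ⟨h, ℓ.2.1⟩)).mul_left M)⟩
  have hgp : ∀ ℓ : ℕ, ℓ.Prime → ¬ ℓ ∣ M → ℓ ∉ S → ¬ ℓ ∣ M' := fun ℓ hℓ hM hℓS h => by
    rcases (Nat.Prime.dvd_mul hℓ).1 h with h | h
    · exact hM h
    · obtain ⟨q, hq, hd⟩ := (Prime.dvd_finsetProd_iff hℓ.prime _).1 h
      rw [Finset.mem_filter] at hq
      exact hℓS ((Nat.prime_dvd_prime_iff_eq hℓ hq.2).1 hd ▸ hq.1)
  let gT : GP M' → CuspForm.heckeAlgebra M 2 (↑S : Set ℕ) := fun ℓ =>
    CuspForm.heckeAlgebra.T (k := 2) ℓ.2.1 (hgood ℓ).1 (by simpa using (hgood ℓ).2)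
  let φ : MvPolynomial (GP M') ℤ →+* CuspForm.heckeAlgebra M 2 (↑S : Set ℕ) :=
    MvPolynomial.eval₂Hom (Int.castRingHom _) gT
  have hsurj : Function.Surjective φ := by
    rintro ⟨t, ht⟩
    induction ht using Algebra.adjoin_induction with
    | mem x hx =>
      rcases hx with ⟨ℓ, hℓ, hℓM, hℓS, rfl⟩ | ⟨q, hqM, hq, hqS, rfl⟩
      · refine ⟨MvPolynomial.X ⟨ℓ, hℓ, hgp ℓ hℓ hℓM (by simpa using hℓS)⟩, ?_⟩
        rw [MvPolynomial.eval₂Hom_X']
        rfl
      · exact absurd (hS q hq hqM) (by simpa using hqS)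
    | algebraMap n =>
      refine ⟨MvPolynomial.C n, ?_⟩
      rw [MvPolynomial.eval₂Hom_C]
      rfl
    | add x y _ _ hx hy =>
      obtain ⟨a, ha⟩ := hx
      obtain ⟨b, hb⟩ := hy
      exact ⟨a + b, by rw [map_add, ha, hb]; rfl⟩
    | mul x y _ _ hx hy =>
      obtain ⟨a, ha⟩ := hx
      obtain ⟨b, hb⟩ := hy
      exact ⟨a * b, by rw [map_mul, ha, hb]; rfl⟩
  let ev : MvPolynomial (GP M') ℤ →+* A :=
    MvPolynomial.eval₂Hom (Int.castRingHom A) fun ℓ => c ℓ.1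
  have hev : ∀ r, hact A M ⊤ M' r ⟨z, hz⟩ = ev r • (⟨z, hz⟩ : Par (GamH M ⊤) A) := fun r => by
    induction r using MvPolynomial.induction_on with
    | C n =>
      rw [hact, evalComm_C, Module.End.intCast_apply, MvPolynomial.eval₂Hom_C]
      exact (Int.cast_smul_eq_zsmul A n _).symm
    | add r s hr hs => simp [hr, hs, add_smul]
    | mul_X r ℓ hr =>
      have hX : TPar A M ⊤ ℓ.1 ⟨z, hz⟩ = c ℓ.1 • (⟨z, hz⟩ : Par (GamH M ⊤) A) :=
        Subtype.ext (heig ℓ.1 (hgood ℓ).2)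
      rw [map_mul, hact_X, Module.End.mul_apply, hX, map_smul, hr, smul_smul, map_mul,
        show ev (MvPolynomial.X ℓ) = c ℓ.1 from MvPolynomial.eval₂Hom_X' _ _ ℓ, mul_comm]
  have hker : ∀ r, φ r = 0 → ev r = 0 := by
    intro r hr
    have hforms : ∀ p : FormPair M, hact ℂ M ⊤ M' r ⟨perP M ⊤ p, perP_mem_Par p⟩ =
        ⟨perP M ⊤ ((φ r : Module.End ℂ (CuspForm (Gamma0 M) 2)) p.1,
          (φ r : Module.End ℂ (CuspForm (Gamma0 M) 2)) p.2), perP_mem_Par _⟩ := by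
      clear hr
      induction r using MvPolynomial.induction_on with
      | C n =>
        intro p
        rw [hact, evalComm_C, Module.End.intCast_apply, MvPolynomial.eval₂Hom_C]
        refine Subtype.ext ?_
        show n • perP M ⊤ p = perP M ⊤ _
        rw [← map_zsmul]
        congr 1
      | add r s hr hs =>
        intro p
        rw [map_add, LinearMap.add_apply, hr, hs]
        refine Subtype.ext ?_
        show perP M ⊤ _ + perP M ⊤ _ = perP M ⊤ _
        rw [← map_add, map_add φ]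
        rfl
      | mul_X r ℓ hr =>
        intro p
        haveI : NeZero ℓ.1 := ⟨ℓ.2.1.ne_zero⟩
        rw [map_mul, hact_X, Module.End.mul_apply,
          show TPar ℂ M ⊤ ℓ.1 ⟨perP M ⊤ p, perP_mem_Par p⟩ =
            ⟨perP M ⊤ (heckeForm M ℓ.1 ℓ.2.1 p.1, heckeForm M ℓ.1 ℓ.2.1 p.2), perP_mem_Par _⟩ from
            Subtype.ext (perP_Tc (fun h => coprime_mem_top ℓ.2.1 h) p), hr]
        refine Subtype.ext ?_
        simp only [map_mul, MulMemClass.coe_mul, Module.End.mul_apply, φ, MvPolynomial.eval₂Hom_X',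
          gT, CuspForm.heckeAlgebra.coe_T, heckeForm, dif_neg (hgood ℓ).1]
    have hC : ∀ w : Par (GamH M ⊤) ℂ, hact ℂ M ⊤ M' r w = 0 := fun w => by
      obtain ⟨p, hp⟩ := exists_perP_eq (M := M) (H := ⊤) rfl w.2
      rw [show w = ⟨perP M ⊤ p, perP_mem_Par p⟩ from Subtype.ext hp.symm, hforms, hr]
      refine Subtype.ext ?_
      show perP M ⊤ ((0 : Module.End ℂ (CuspForm (Gamma0 M) 2)) p.1,
        (0 : Module.End ℂ (CuspForm (Gamma0 M) 2)) p.2) = 0
      exact map_zero _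
    have hZ : ∀ x : Par (GamH M ⊤) ℤ, hact ℤ M ⊤ M' r x = 0 := fun x => by
      refine Subtype.ext (AddMonoidHom.ext fun γ => Int.cast_injective (α := ℂ) ?_)
      have h := hact_comp (Int.castAddHom ℂ) M ⊤ M' r x
      rw [hC] at h
      exact (DFunLike.congr_fun h γ).trans Int.cast_zero.symm
    obtain ⟨n, co, zk, hsum⟩ := exists_par_coord z hz
    have hzero : hact A M ⊤ M' r ⟨z, hz⟩ = 0 := by
      have e : (⟨z, hz⟩ : Par (GamH M ⊤) A) = ∑ k, co k •
          (⟨(Int.castAddHom A).comp (zk k).1, Par_comp _ (zk k).2⟩ : Par (GamH M ⊤) A) :=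
        Subtype.ext (by rw [Submodule.coe_sum]; exact hsum)
      rw [e, map_sum]
      refine Finset.sum_eq_zero fun k _ => ?_
      rw [map_smul]
      refine smul_eq_zero_of_right _ (Subtype.ext ?_)
      rw [← hact_comp (Int.castAddHom A) M ⊤ M' r (zk k), hZ]
      exact AddMonoidHom.comp_zero _
    rw [hev] at hzero
    by_contra hne
    refine hz0 (AddMonoidHom.ext fun γ => ?_)
    exact (mul_eq_zero.1 (DFunLike.congr_fun (congrArg Subtype.val hzero) γ)).resolve_left hne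
  refine ⟨RingHom.liftOfSurjective φ hsurj ⟨ev, fun r hr => hker r hr⟩, fun ℓ hℓ hℓM hℓS => ?_⟩
  have hX : φ (MvPolynomial.X ⟨ℓ, hℓ, hgp ℓ hℓ hℓM (by simpa using hℓS)⟩) =
      CuspForm.heckeAlgebra.T (k := 2) hℓ hℓM hℓS := by
    rw [MvPolynomial.eval₂Hom_X']
  rw [← hX, RingHom.liftOfRightInverse_comp_apply]
  exact MvPolynomial.eval₂Hom_X' _ _ _

end FA.Twist
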