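import Fermat.Agent.Twist.System
import Fermat.Agent.JTorsion.Point
import Fermat.Agent.JTorsion.GoodRedAll

/-!
# Galois representations of eigen systems with nebentypus at Taylor-Wiles primes

An eigenclass on `Γ_H(M)` with diamond character `∏ η_q²` gives `r = θ ⊗ ρ`, where `θ` is the
Galois character of `∏ η_q` and `ρ` is attached to the twisted eigen system on `Γ₀(M ∏ q)`.
-/

set_option autoImplicit false
set_option linter.unusedSectionVars false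
set_option maxHeartbeats 1000000

noncomputable section

namespace FA.Twist

open IsLocalRing FA.HeckeH1
open scoped MatrixGroups

local notation "Qb" => AlgebraicClosure ℚ
local notation "GQ" => AlgebraicClosure ℚ ≃ₐ[ℚ] AlgebraicClosure ℚ

section chars

variable {A : Type} [CommRing A]

/-- The Galois character of a character modulo `q`. -/
def galCharAt (q : ℕ) (η : MulChar (ZMod q) A) : GQ →* Aˣ :=
  if h : q.Prime then
    haveI : Fact q.Prime := ⟨h⟩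
    η.toUnitHom.comp (FA.JTorsion.cycK q (ZMod q))
  else 1

/-- The Galois character of a family of characters. -/
def galChar (Q : Finset ℕ) (η : ∀ q : ℕ, MulChar (ZMod q) A) : GQ →* Aˣ :=
  ∏ q ∈ Q, galCharAt q (η q)

theorem galCharAt_inertia {q ℓ : ℕ} (η : MulChar (ZMod q) A) (hℓ : ℓ.Prime) (hℓq : ℓ ≠ q)
    {B : ValuationSubring Qb} (hB : B.LiesOverPrime ℓ) {σ : GQ}
    (hσ : σ ∈ B.inertiaSubgroupIn ℚ) : galCharAt q η σ = 1 := by
  by_cases h : q.Prime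
  · haveI : Fact q.Prime := ⟨h⟩
    rw [galCharAt, dif_pos h, MonoidHom.comp_apply,
      FA.JTorsion.cycK_inertia q (ZMod q) hℓ hℓq hB hσ, map_one]
  · rw [galCharAt, dif_neg h, MonoidHom.one_apply]

theorem galCharAt_frobenius {q ℓ : ℕ} (hq : q.Prime) (η : MulChar (ZMod q) A) (hℓ : ℓ.Prime)
    (hℓq : ℓ ≠ q) {B : ValuationSubring Qb} (hB : B.LiesOverPrime ℓ) {σ : GQ}
    (hσ : B.IsFrobeniusAt σ ℓ) : (galCharAt q η σ : A) = η (ℓ : ZMod q) := by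
  haveI : Fact q.Prime := ⟨hq⟩
  rw [galCharAt, dif_pos hq, MonoidHom.comp_apply, MulChar.coe_toUnitHom,
    FA.JTorsion.cycK_frobenius q (ZMod q) hℓ hℓq hB hσ]

theorem galChar_inertia (Q : Finset ℕ) (η : ∀ q : ℕ, MulChar (ZMod q) A) {ℓ : ℕ} (hℓ : ℓ.Prime)
    (hℓQ : ℓ ∉ Q) {B : ValuationSubring Qb} (hB : B.LiesOverPrime ℓ) {σ : GQ}
    (hσ : σ ∈ B.inertiaSubgroupIn ℚ) : galChar Q η σ = 1 := by
  rw [galChar, MonoidHom.finsetProd_apply]
  exact Finset.prod_eq_one fun q hq => galCharAt_inertia _ hℓ (fun h => hℓQ (h ▸ hq)) hB hσ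

theorem galChar_frobenius (Q : Finset ℕ) (hQ : ∀ q ∈ Q, q.Prime)
    (η : ∀ q : ℕ, MulChar (ZMod q) A) {ℓ : ℕ} (hℓ : ℓ.Prime)
    (hℓQ : ℓ ∉ Q) {B : ValuationSubring Qb} (hB : B.LiesOverPrime ℓ) {σ : GQ}
    (hσ : B.IsFrobeniusAt σ ℓ) : (galChar Q η σ : A) = ∏ q ∈ Q, η q (ℓ : ZMod q) := by
  rw [galChar, MonoidHom.finsetProd_apply, Units.coe_prod]
  exact Finset.prod_congr rfl fun q hq =>
    galCharAt_frobenius (hQ q hq) _ hℓ (fun h => hℓQ (h ▸ hq)) hB hσ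

theorem exists_field_galChar (Q : Finset ℕ) (η : ∀ q : ℕ, MulChar (ZMod q) A) :
    ∃ L : IntermediateField ℚ Qb, FiniteDimensional ℚ L ∧
      ∀ σ : GQ, (∀ a ∈ L, σ a = a) → galChar Q η σ = 1 := by
  classical
  induction Q using Finset.induction with
  | empty => exact ⟨⊥, inferInstance, fun σ _ => by rw [galChar, Finset.prod_empty, MonoidHom.one_apply]⟩
  | insert q Q hq ih =>
    obtain ⟨L, hL, h⟩ := ih
    obtain ⟨L', hL', h'⟩ : ∃ L' : IntermediateField ℚ Qb, FiniteDimensional ℚ L' ∧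
        ∀ σ : GQ, (∀ a ∈ L', σ a = a) → galCharAt q (η q) σ = 1 := by
      by_cases hp : q.Prime
      · haveI : Fact q.Prime := ⟨hp⟩
        obtain ⟨L', hL', h'⟩ := FA.JTorsion.exists_field_cycK q (ZMod q)
        exact ⟨L', hL', fun σ hσ => by
          rw [galCharAt, dif_pos hp, MonoidHom.comp_apply, h' σ hσ, map_one]⟩
      · exact ⟨⊥, inferInstance, fun σ _ => by rw [galCharAt, dif_neg hp, MonoidHom.one_apply]⟩
    refine ⟨L ⊔ L', inferInstance, fun σ hσ => ?_⟩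
    rw [galChar, Finset.prod_insert hq, MonoidHom.mul_apply, ← galChar,
      h' σ fun a ha => hσ a ((le_sup_right : L' ≤ L ⊔ L') ha),
      h σ fun a ha => hσ a ((le_sup_left : L ≤ L ⊔ L') ha), one_mul]

/-- A matrix representation tensored with a character. -/
def twistMat (θ : GQ →* Aˣ) (m : GQ →* Matrix (Fin 2) (Fin 2) A) :
    GQ →* Matrix (Fin 2) (Fin 2) A where
  toFun σ := (θ σ : A) • m σ
  map_one' := by rw [map_one, map_one, Units.val_one, one_smul]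
  map_mul' σ τ := by
    rw [map_mul, map_mul, Units.val_mul, Matrix.smul_mul, Matrix.mul_smul, smul_smul]

theorem twistMat_apply (θ : GQ →* Aˣ) (m : GQ →* Matrix (Fin 2) (Fin 2) A) (σ : GQ) :
    twistMat θ m σ = (θ σ : A) • m σ := rfl

theorem isContRep_twistMat [IsLocalRing A] {θ : GQ →* Aˣ} {m : GQ →* Matrix (Fin 2) (Fin 2) A}
    (hm : FA.Deform.IsContRep m)
    (hθ : ∃ L : IntermediateField ℚ Qb, FiniteDimensional ℚ L ∧
      ∀ σ : GQ, (∀ a ∈ L, σ a = a) → θ σ = 1) :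
    FA.Deform.IsContRep (twistMat θ m) := fun n => by
  obtain ⟨L, hL, h⟩ := hm n
  obtain ⟨L', hL', h'⟩ := hθ
  refine ⟨L ⊔ L', inferInstance, fun σ hσ i j => ?_⟩
  rw [twistMat_apply, h' σ fun a ha => hσ a ((le_sup_right : L' ≤ L ⊔ L') ha), Units.val_one,
    one_smul]
  exact h σ (fun a ha => hσ a ((le_sup_left : L ≤ L ⊔ L') ha)) i j

end chars

/-- **Galois representations of eigen systems with nebentypus.** -/
theorem exists_rep_of_nebentypus (p : ℕ) [Fact p.Prime]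
    (O : Type) [CommRing O] [IsDomain O] [IsDiscreteValuationRing O]
    [IsAdicComplete (maximalIdeal O) O] [Finite (ResidueField O)] [CharZero O]
    (hpO : (p : O) ∈ maximalIdeal O)
    (M : ℕ) [NeZero M] (H : Subgroup (ZMod M)ˣ) (S : Finset ℕ) (hpS : p ∈ S)
    (hS : ∀ q : ℕ, q.Prime → q ∣ M → q ∈ S)
    (Q : Finset ℕ) (η : ∀ q : ℕ, MulChar (ZMod q) O)
    (hQ : ∀ q ∈ Q, q.Prime ∧ q ∣ M ∧ ¬ q * q ∣ M ∧ η q ^ 2 ≠ 1)
    (z : Hom1 (GamH M H) O) (hz : z ∈ Par (GamH M H) O) (hz0 : z ≠ 0)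
    (hdia : ∀ g : GamH M ⊤, dia M H O g z =
      (∏ q ∈ Q, η q (ZMod.cast (ulHom M g : ZMod M)) ^ 2) • z)
    (c : ℕ → O) (heig : ∀ ℓ : ℕ, [Fact ℓ.Prime] → ℓ ∉ S → (Tc M H ℓ).act z = c ℓ • z) :
    ∃ (_ : NeZero (M * ∏ q ∈ Q, q))
      (χ : CuspForm.heckeAlgebra (M * ∏ q ∈ Q, q) 2 (↑S : Set ℕ) →+* O)
      (O' : Type) (_ : CommRing O') (_ : IsDomain O') (_ : IsDiscreteValuationRing O')
      (_ : IsAdicComplete (maximalIdeal O') O') (_ : Finite (ResidueField O')) (_ : CharZero O')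
      (_ : Algebra O O') (_ : Module.Finite O O') (_ : IsLocalHom (algebraMap O O')),
    Function.Injective (algebraMap O O') ∧
    (∀ (ℓ : ℕ) (hℓ : ℓ.Prime) (hℓN : ¬ ℓ ∣ M * ∏ q ∈ Q, q) (hℓS : ℓ ∉ (↑S : Set ℕ)),
      χ (CuspForm.heckeAlgebra.T (k := 2) hℓ hℓN hℓS) =
        (∏ q ∈ Q, (η q)⁻¹ (ℓ : ZMod q)) * c ℓ) ∧
    ∃ m : GQ →* Matrix (Fin 2) (Fin 2) O', FA.Deform.IsContRep m ∧
      FA.Deform.IsContRep
        (twistMat ((Units.map (algebraMap O O').toMonoidHom).comp (galChar Q η)) m) ∧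
      (∀ ℓ : ℕ, ℓ.Prime → ℓ ∉ S → ∀ B : ValuationSubring Qb, B.LiesOverPrime ℓ →
        ∀ σ : GQ, B.IsFrobeniusAt σ ℓ →
          (m σ).trace = algebraMap O O' ((∏ q ∈ Q, (η q)⁻¹ (ℓ : ZMod q)) * c ℓ) ∧
          (m σ).det = (ℓ : O') ∧
          (twistMat ((Units.map (algebraMap O O').toMonoidHom).comp (galChar Q η)) m σ).trace =
            algebraMap O O' (c ℓ) ∧
          (twistMat ((Units.map (algebraMap O O').toMonoidHom).comp (galChar Q η)) m σ).det =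
            (ℓ : O') * algebraMap O O' (∏ q ∈ Q, η q (ℓ : ZMod q) ^ 2)) ∧
      ∀ ℓ : ℕ, ℓ.Prime → ¬ ℓ ∣ M → ℓ ≠ p → ∀ B : ValuationSubring Qb, B.LiesOverPrime ℓ →
        ∀ σ ∈ B.inertiaSubgroupIn ℚ, m σ = 1 ∧
          twistMat ((Units.map (algebraMap O O').toMonoidHom).comp (galChar Q η)) m σ = 1 := by
  classical
  obtain ⟨z', hz'p, hz'0, hz'e⟩ := exists_twisted η S Q M H hS hQ z hz hz0 hdia c heig
  haveI hne : NeZero (M * ∏ q ∈ Q, q) :=
    ⟨mul_ne_zero (NeZero.ne M) (Finset.prod_ne_zero_iff.2 fun q hq => (hQ q hq).1.ne_zero)⟩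
  have hdvd : ∀ ℓ : ℕ, ℓ.Prime → ℓ ∣ M * ∏ q ∈ Q, q → ℓ ∣ M := fun ℓ hℓ h => by
    rcases (Nat.Prime.dvd_mul hℓ).1 h with h | h
    · exact h
    · obtain ⟨q, hq, hd⟩ := (Prime.dvd_finsetProd_iff hℓ.prime _).1 h
      rw [(Nat.prime_dvd_prime_iff_eq hℓ (hQ q hq).1).1 hd]
      exact (hQ q hq).2.1
  have hS' : ∀ q : ℕ, q.Prime → q ∣ M * ∏ q ∈ Q, q → q ∈ S :=
    fun q hq h => hS q hq (hdvd q hq h)
  obtain ⟨χ, hχ⟩ := exists_point (M * ∏ q ∈ Q, q) S hS' hz'p hz'0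
    (fun ℓ => (∏ q ∈ Q, (η q)⁻¹ (ℓ : ZMod q)) * c ℓ) hz'e
  obtain ⟨O', i₁, i₂, i₃, i₄, i₅, i₆, i₇, i₈, i₉, hinj, ρ, hchar, hunr⟩ :=
    FA.JTorsion.exists_galoisRep_of_point p _ (FA.JTorsion.goodRed_all _) S hpS O hpO χ
  refine ⟨hne, χ, O', i₁, i₂, i₃, i₄, i₅, i₆, i₇, i₈, i₉, hinj, hχ, ?_⟩
  let b := FA.Deform.repBasis ρ
  let m := FA.Deform.matrixOf ρ b
  have hm := FA.Deform.isContRep_matrixOf ρ b
  refine ⟨m, hm, isContRep_twistMat hm ?_, fun ℓ hℓ hℓS B hB σ hσ => ?_, fun ℓ hℓ hℓM hℓp B hB σ hσ => ?_⟩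
  · obtain ⟨L, hL, h⟩ := exists_field_galChar Q η
    exact ⟨L, hL, fun σ hσ => by rw [MonoidHom.comp_apply, h σ hσ, map_one]⟩
  · have hℓN : ¬ ℓ ∣ M * ∏ q ∈ Q, q := fun h => hℓS (hS' ℓ hℓ h)
    have hℓQ : ℓ ∉ Q := fun h => hℓS (hS ℓ hℓ (hQ ℓ h).2.1)
    have h := hchar ℓ hℓ hℓN (by simpa using hℓS) B hB σ hσ
    rw [← LinearMap.charpoly_toMatrix (ρ.ρ σ) b, ← FA.Deform.matrixOf_apply,
      Matrix.charpoly_fin_two, hχ] at h
    generalize htgt : algebraMap O O' ((∏ q ∈ Q, (η q)⁻¹ (ℓ : ZMod q)) * c ℓ) = tgt at h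
    have h1 := congrArg (fun f => Polynomial.coeff f 1) h
    have h0 := congrArg (fun f => Polynomial.coeff f 0) h
    simp [Polynomial.coeff_X, Polynomial.coeff_C] at h1 h0
    subst htgt
    have htr : (m σ).trace = algebraMap O O' ((∏ q ∈ Q, (η q)⁻¹ (ℓ : ZMod q)) * c ℓ) := by
      exact h1
    have hθ : ((((Units.map (algebraMap O O').toMonoidHom).comp (galChar Q η)) σ : O'ˣ) : O') =
        algebraMap O O' (∏ q ∈ Q, η q (ℓ : ZMod q)) := by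
      rw [← galChar_frobenius Q (fun q hq => (hQ q hq).1) η hℓ hℓQ hB hσ]
      rfl
    refine ⟨htr, h0, ?_, ?_⟩
    · rw [twistMat_apply, Matrix.trace_smul, htr, smul_eq_mul, hθ, ← map_mul, ← mul_assoc,
        ← Finset.prod_mul_distrib, Finset.prod_eq_one fun q hq => ?_, one_mul]
      have hu : IsUnit (ℓ : ZMod q) := (ZMod.isUnit_iff_coprime ℓ q).2
        ((Nat.coprime_primes hℓ (hQ q hq).1).2 fun h => hℓQ (h ▸ hq))
      rw [← MulChar.mul_apply, mul_inv_cancel, MulChar.one_apply hu]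
    · rw [twistMat_apply, Matrix.det_smul, Fintype.card_fin, hθ, h0, ← map_pow, ← Finset.prod_pow,
        mul_comm]
  · have hℓN : ¬ ℓ ∣ M * ∏ q ∈ Q, q := fun h => hℓM (hdvd ℓ hℓ h)
    have hℓQ : ℓ ∉ Q := fun h => hℓM (hQ ℓ h).2.1
    have h1 : m σ = 1 := by
      show LinearMap.toMatrix b b (ρ.ρ σ) = 1
      rw [hunr ℓ hℓ hℓN hℓp B hB σ hσ, LinearMap.toMatrix_one]
    refine ⟨h1, ?_⟩
    rw [twistMat_apply, h1, MonoidHom.comp_apply, galChar_inertia Q η hℓ hℓQ hB hσ, map_one,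
      Units.val_one, one_smul]

end FA.Twist
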