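import Fermat.Agent.Twist.Injective
import Fermat.Agent.Twist.Point

/-!
# Eigen systems with nebentypus become systems of trivial character after twisting

A class with diamond character `∏ η_q²` over primes `q` exactly dividing the level gives, by
twisting at one prime after the other and corestricting, an eigenclass on `Γ₀(M ∏ q)` with
eigenvalues `∏ η_q⁻¹(ℓ) c_ℓ`.
-/

set_option autoImplicit false
set_option linter.unusedSectionVars false

noncomputable section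

namespace FA.Twist

open FA.HeckeH1
open scoped MatrixGroups

variable {A : Type*} [CommRing A] [IsDomain A] [CharZero A]

theorem cast_toM {M q m : ℕ} [NeZero q] (hm : m ∣ M) (u : (ZMod (M * q))ˣ) :
    ZMod.castHom hm (ZMod m) (toM M q u : ZMod M) =
      ZMod.castHom (hm.mul_right q) (ZMod m) (u : ZMod (M * q)) := by
  obtain ⟨a, ha⟩ := ZMod.intCast_surjective (u : ZMod (M * q))
  rw [toM_val ha.symm, map_intCast, ← ha, map_intCast]

/-- Corestriction of an invariant class to `Γ₀(M)`. -/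
theorem exists_top {M : ℕ} [NeZero M] {H : Subgroup (ZMod M)ˣ} {S : Finset ℕ}
    {z : Hom1 (GamH M H) A} (hz : z ∈ Par (GamH M H) A) (hz0 : z ≠ 0)
    (hdia : ∀ g, dia M H A g z = z) (c : ℕ → A)
    (heig : ∀ ℓ : ℕ, [Fact ℓ.Prime] → ℓ ∉ S → (Tc M H ℓ).act z = c ℓ • z) :
    ∃ z' : Hom1 (GamH M (⊤ : Subgroup (ZMod M)ˣ)) A, z' ∈ Par (GamH M ⊤) A ∧ z' ≠ 0 ∧
      ∀ ℓ : ℕ, [Fact ℓ.Prime] → ℓ ∉ S → (Tc M ⊤ ℓ).act z' = c ℓ • z' := by
  classical
  haveI : ((GamH M H).subgroupOf (GamH M ⊤)).FiniteIndex := inferInstance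
  haveI : Finite (GamH M ⊤ ⧸ (GamH M H).subgroupOf (GamH M ⊤)) :=
    Subgroup.finite_quotient_of_finiteIndex
  haveI := Fintype.ofFinite (GamH M ⊤ ⧸ (GamH M H).subgroupOf (GamH M ⊤))
  let C : Corr (GamH M H) (GamH M ⊤) := Corr.cores (Γ := GamH M ⊤)
  refine ⟨C.act z, Par_act C hz, fun h => hz0 ?_, fun ℓ _ hℓ => ?_⟩
  · have h1 := res_cores (H := H) z
    rw [show (Corr.cores (Γ := GamH M ⊤)).act z = 0 from h, map_zero] at h1
    simp only [hdia, Finset.sum_const] at h1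
    apply AddMonoidHom.ext
    intro γ
    have h2 := (DFunLike.congr_fun h1 γ).symm
    rw [AddMonoidHom.smul_apply, AddMonoidHom.zero_apply, nsmul_eq_mul] at h2
    refine (mul_eq_zero.1 h2).resolve_left (Nat.cast_ne_zero.2 ?_)
    exact Finset.card_ne_zero.2 ⟨QuotientGroup.mk 1, Finset.mem_univ _⟩
  · rw [cores_Tc_diamond, heig ℓ hℓ, C.act_smul]

/-- **Iterated twisting.** Only the primes of the twist are excluded from the eigenvalues. -/
theorem exists_twisted' (η : ∀ q : ℕ, MulChar (ZMod q) A) (S : Finset ℕ) (Q : Finset ℕ) :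
    ∀ (M : ℕ) [NeZero M] (H : Subgroup (ZMod M)ˣ),
      (∀ q ∈ Q, q ∈ S) →
      (∀ q ∈ Q, q.Prime ∧ q ∣ M ∧ ¬ q * q ∣ M ∧ η q ^ 2 ≠ 1) →
      ∀ z : Hom1 (GamH M H) A, z ∈ Par (GamH M H) A → z ≠ 0 →
      (∀ g : GamH M ⊤, dia M H A g z =
        (∏ q ∈ Q, η q (ZMod.cast (ulHom M g : ZMod M)) ^ 2) • z) →
      ∀ c : ℕ → A, (∀ ℓ : ℕ, [Fact ℓ.Prime] → ℓ ∉ S → (Tc M H ℓ).act z = c ℓ • z) →
      ∃ z' : Hom1 (GamH (M * ∏ q ∈ Q, q) (⊤ : Subgroup (ZMod (M * ∏ q ∈ Q, q))ˣ)) A,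
        z' ∈ Par (GamH (M * ∏ q ∈ Q, q) ⊤) A ∧ z' ≠ 0 ∧
        ∀ ℓ : ℕ, [Fact ℓ.Prime] → ℓ ∉ S →
          (Tc (M * ∏ q ∈ Q, q) ⊤ ℓ).act z' =
            ((∏ q ∈ Q, (η q)⁻¹ (ℓ : ZMod q)) * c ℓ) • z' := by
  classical
  induction Q using Finset.induction with
  | empty =>
    intro M _ H _ _ z hz hz0 hdia c heig
    have h := exists_top hz hz0 (fun g => by rw [hdia, Finset.prod_empty, one_smul]) c heig
    rw [Finset.prod_empty, mul_one]
    simpa only [Finset.prod_empty, one_mul] using h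
  | insert q Q hqQ ih =>
    intro M _ H hS hQ z hz hz0 hdia c heig
    obtain ⟨hq, hqM, hqq, hη2⟩ := hQ q (Finset.mem_insert_self q Q)
    haveI : Fact q.Prime := ⟨hq⟩
    haveI : NeZero q := ⟨hq.ne_zero⟩
    haveI : Fact (q ∣ M) := ⟨hqM⟩
    haveI : NeZero (M * q) := ⟨mul_ne_zero (NeZero.ne M) hq.ne_zero⟩
    obtain ⟨N', hN'⟩ := hqM
    have hcop : q.Coprime N' := hq.coprime_iff_not_dvd.2 fun ⟨d, hd⟩ =>
      hqq ⟨d, by rw [hN', hd, mul_assoc]⟩
    let ψ : (ZMod M)ˣ →* A :=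
      ∏ r ∈ insert q Q, if hr : r ∣ M then
        ((powMonoidHom 2).comp ((η r).toMonoidHom.comp
          ((ZMod.castHom hr (ZMod r)).toMonoidHom.comp (Units.coeHom (ZMod M))))) else 1
    have hψ : ∀ u : (ZMod M)ˣ,
        ψ u = ∏ r ∈ insert q Q, η r (ZMod.cast (u : ZMod M)) ^ 2 := fun u => by
      rw [MonoidHom.finsetProd_apply]
      refine Finset.prod_congr rfl fun r hr => ?_
      rw [dif_pos (hQ r hr).2.1]
      rfl
    have hz' : ∀ g, dia M H A g z = ψ (ulHom M g) • z := fun g => by rw [hdia, hψ]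
    -- a unit congruent to one away from `q` on which the character is nontrivial
    obtain ⟨u, hu, hψu⟩ : ∃ u : (ZMod M)ˣ,
        ZMod.castHom (Dvd.intro_left q hN'.symm) (ZMod N') (u : ZMod M) = 1 ∧ ψ u ≠ 1 := by
      obtain ⟨v, hv⟩ := MulChar.ne_one_iff.1 hη2
      subst hN'
      let u : (ZMod (q * N'))ˣ :=
        (Units.mapEquiv (ZMod.chineseRemainder hcop).toMulEquiv).symm
          (MulEquiv.prodUnits.symm (v, 1))
      have hu : ZMod.chineseRemainder hcop (u : ZMod (q * N')) = ((v : ZMod q), (1 : ZMod N')) :=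
        (ZMod.chineseRemainder hcop).apply_symm_apply ((v : ZMod q), (1 : ZMod N'))
      have h1 : ZMod.castHom (dvd_mul_right q N') (ZMod q) (u : ZMod (q * N')) = v := by
        have := congrArg Prod.fst hu
        simpa [ZMod.chineseRemainder] using this
      have h2 : ZMod.castHom (dvd_mul_left N' q) (ZMod N') (u : ZMod (q * N')) = 1 := by
        have := congrArg Prod.snd hu
        simpa [ZMod.chineseRemainder] using this
      refine ⟨u, h2, ?_⟩
      rw [hψ, Finset.prod_insert hqQ, Finset.prod_eq_one fun r hr => ?_, mul_one]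
      · rw [show (ZMod.cast (u : ZMod (q * N')) : ZMod q) = v from h1]
        rwa [MulChar.pow_apply_coe] at hv
      · obtain ⟨hrp, hrM, -, -⟩ := hQ r (Finset.mem_insert_of_mem hr)
        have hrq : r ≠ q := fun h => hqQ (h ▸ hr)
        have hrN : r ∣ N' := ((Nat.Prime.dvd_mul hrp).1 hrM).resolve_left
          fun h => hrq ((Nat.prime_dvd_prime_iff_eq hrp hq).1 h)
        have h3 : ZMod.castHom hrM (ZMod r) (u : ZMod (q * N')) = 1 := by
          rw [show ZMod.castHom hrM (ZMod r) =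
              (ZMod.castHom hrN (ZMod r)).comp (ZMod.castHom (dvd_mul_left N' q) (ZMod N')) from
            RingHom.ext_zmod _ _, RingHom.comp_apply, h2, map_one]
        rw [show (ZMod.cast (u : ZMod (q * N')) : ZMod r) = 1 from h3, map_one, one_pow]
    have hη1 : η q ≠ 1 := fun h => hη2 (by rw [h, one_pow])
    have hne := tw_ne_zero hη1 hz0 hN' hcop ψ hz' u hu hψu
    have hS' : ∀ r ∈ Q, r ∈ S := fun r hr => hS r (Finset.mem_insert_of_mem hr)
    have hQ' : ∀ r ∈ Q, r.Prime ∧ r ∣ M * q ∧ ¬ r * r ∣ M * q ∧ η r ^ 2 ≠ 1 := fun r hr => by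
      obtain ⟨hrp, hrM, hrr, hr2⟩ := hQ r (Finset.mem_insert_of_mem hr)
      refine ⟨hrp, hrM.mul_right q, fun h => hrr ?_, hr2⟩
      have hcp : (r * r).Coprime q := Nat.Coprime.mul_left
        ((Nat.coprime_primes hrp hq).2 fun h' => hqQ (h' ▸ hr))
        ((Nat.coprime_primes hrp hq).2 fun h' => hqQ (h' ▸ hr))
      exact hcp.dvd_of_dvd_mul_right h
    obtain ⟨z', hz'par, hz'0, hz'eig⟩ := ih (M * q) (Hsq M H q) hS' hQ' (tw M H q (η q) z)
      (tw_mem_Par _ hz) hne (fun g => by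
        rw [dia_tw (η q) z ψ hz' g, hψ]
        congr 1
        rw [Finset.prod_insert hqQ, mul_comm (η q (ZMod.cast _) ^ 2), mul_assoc]
        refine Eq.trans (congrArg₂ (· * ·) (Finset.prod_congr rfl fun r hr => ?_) ?_) (mul_one _)
        · have hrM := (hQ r (Finset.mem_insert_of_mem hr)).2.1
          exact congrArg (fun x => η r x ^ 2) (cast_toM hrM (ulHom (M * q) g))
        · have e : (ZMod.cast (toM M q (ulHom (M * q) g) : ZMod M) : ZMod q) =
              (toQ M q (ulHom (M * q) g) : ZMod q) :=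
            (cast_toM (Fact.out : q ∣ M) (ulHom (M * q) g))
          rw [e, ← map_pow, ← MulChar.mul_apply, mul_inv_cancel, ← Units.val_pow_eq_pow_val,
            MulChar.one_apply_coe])
      (fun ℓ => (η q)⁻¹ (ℓ : ZMod q) * c ℓ) (fun ℓ _ hℓ => by
        refine Tc_tw_eigen (η q) ℓ (fun h => hℓ ?_) (heig ℓ hℓ)
        rw [(Nat.prime_dvd_prime_iff_eq Fact.out hq).1 h]
        exact hS q (Finset.mem_insert_self q Q))
    rw [Finset.prod_insert hqQ, ← mul_assoc]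
    refine ⟨z', hz'par, hz'0, fun ℓ _ hℓ => ?_⟩
    rw [hz'eig ℓ hℓ, Finset.prod_insert hqQ]
    congr 1
    ring

/-- Iterated twisting, with the primes of the level excluded. -/
theorem exists_twisted (η : ∀ q : ℕ, MulChar (ZMod q) A) (S : Finset ℕ) (Q : Finset ℕ) :
    ∀ (M : ℕ) [NeZero M] (H : Subgroup (ZMod M)ˣ),
      (∀ q : ℕ, q.Prime → q ∣ M → q ∈ S) →
      (∀ q ∈ Q, q.Prime ∧ q ∣ M ∧ ¬ q * q ∣ M ∧ η q ^ 2 ≠ 1) →
      ∀ z : Hom1 (GamH M H) A, z ∈ Par (GamH M H) A → z ≠ 0 →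
      (∀ g : GamH M ⊤, dia M H A g z =
        (∏ q ∈ Q, η q (ZMod.cast (ulHom M g : ZMod M)) ^ 2) • z) →
      ∀ c : ℕ → A, (∀ ℓ : ℕ, [Fact ℓ.Prime] → ℓ ∉ S → (Tc M H ℓ).act z = c ℓ • z) →
      ∃ z' : Hom1 (GamH (M * ∏ q ∈ Q, q) (⊤ : Subgroup (ZMod (M * ∏ q ∈ Q, q))ˣ)) A,
        z' ∈ Par (GamH (M * ∏ q ∈ Q, q) ⊤) A ∧ z' ≠ 0 ∧
        ∀ ℓ : ℕ, [Fact ℓ.Prime] → ℓ ∉ S →
          (Tc (M * ∏ q ∈ Q, q) ⊤ ℓ).act z' =
            ((∏ q ∈ Q, (η q)⁻¹ (ℓ : ZMod q)) * c ℓ) • z' :=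
  fun M _ H hS hQ => exists_twisted' η S Q M H (fun q hq => hS q (hQ q hq).1 (hQ q hq).2.1) hQ

end FA.Twist
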