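import Fermat.Agent.Twist.Twist
import Mathlib.GroupTheory.OrderOfElement

/-!
# Twists of classes with character ramified at `q` do not vanish

After conjugation by `diag(q, 1)` the translation by `1 / q` becomes `T`.  Together with the lower
unipotents of level `M / q` it generates an element inducing any diamond congruent to `1` modulo
`M / q`, so such a diamond fixes a class with vanishing twist.
-/

set_option autoImplicit false
set_option linter.unusedSectionVars false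

noncomputable section

namespace FA.Twist

open Matrix FA.HeckeH1
open CongruenceSubgroup (Gamma Gamma_mem Gamma_normal)
open scoped MatrixGroups

/-- `diag(q, 1)`. -/
def dm (q : ℕ) : MatZ := !![(q : ℤ), 0; 0, 1]

theorem dm_left_cancel {q : ℕ} (hq : q ≠ 0) {Y Y' : MatZ} (h : dm q * Y = dm q * Y') : Y = Y' := by
  have hd : (dm q).det ≠ 0 := by simp [dm, Matrix.det_fin_two_of, hq]
  have h2 := congrArg (fun Z : MatZ => (dm q).adjugate * Z) h
  simp only [← Matrix.mul_assoc, adjugate_mul, Matrix.smul_mul, Matrix.one_mul] at h2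
  exact smul_right_injective MatZ hd h2

/-- `g` is the conjugate of `x` by `diag(q, 1)`. -/
def Down (q : ℕ) (g x : SL(2, ℤ)) : Prop := dm q * x.1 = g.1 * dm q

theorem Down.mul {q : ℕ} {g x g' x' : SL(2, ℤ)} (h : Down q g x) (h' : Down q g' x') :
    Down q (g * g') (x * x') := by
  unfold Down at h h' ⊢
  rw [Matrix.SpecialLinearGroup.coe_mul, Matrix.SpecialLinearGroup.coe_mul, ← Matrix.mul_assoc, h,
    Matrix.mul_assoc, h', Matrix.mul_assoc]

theorem Down.inv {q : ℕ} {g x : SL(2, ℤ)} (h : Down q g x) : Down q g⁻¹ x⁻¹ := by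
  unfold Down at h ⊢
  have h1 := congrArg (fun Z : MatZ => g⁻¹.1 * Z * x⁻¹.1) h
  simp only [Matrix.mul_assoc] at h1
  rw [← Matrix.SpecialLinearGroup.coe_mul x, mul_inv_cancel, Matrix.SpecialLinearGroup.coe_one,
    Matrix.mul_one, ← Matrix.mul_assoc g⁻¹.1 g.1, ← Matrix.SpecialLinearGroup.coe_mul,
    inv_mul_cancel, Matrix.SpecialLinearGroup.coe_one, Matrix.one_mul] at h1
  exact h1.symm

theorem Down.unique {q : ℕ} (hq : q ≠ 0) {g x x' : SL(2, ℤ)} (h : Down q g x) (h' : Down q g x') :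
    x = x' := Subtype.ext (dm_left_cancel hq (h.trans h'.symm))

theorem Down.of_entries {q : ℕ} {g x : SL(2, ℤ)} (h00 : x.1 0 0 = g.1 0 0)
    (h01 : (q : ℤ) * x.1 0 1 = g.1 0 1) (h10 : x.1 1 0 = q * g.1 1 0) (h11 : x.1 1 1 = g.1 1 1) :
    Down q g x := by
  unfold Down
  ext i j
  fin_cases i <;> fin_cases j <;>
    simp [dm, Matrix.mul_apply, Fin.sum_univ_two, h00, h01, h10, h11, mul_comm]

/-- Elements of deep level come from elements of level `M q²`. -/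
theorem exists_down {M q : ℕ} (hq : q ≠ 0) {y : SL(2, ℤ)} (hy : y ∈ Gamma (M * q * q * q)) :
    ∃ x : SL(2, ℤ), x ∈ Gamma (M * q * q) ∧ Down q y x := by
  rw [Gamma_mem] at hy
  obtain ⟨ha, hb, hc, hd⟩ := hy
  have hdvd : ∀ {i j : Fin 2}, (y.1 i j : ZMod (M * q * q * q)) = 0 →
      ((M * q * q * q : ℕ) : ℤ) ∣ y.1 i j := fun h => (ZMod.intCast_zmod_eq_zero_iff_dvd _ _).1 h
  obtain ⟨k, hk⟩ := hdvd hb
  obtain ⟨l, hl⟩ := hdvd hc
  let X : MatZ := !![y.1 0 0, (M * q * q : ℕ) * k; q * y.1 1 0, y.1 1 1]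
  have hX : X.det = 1 := by
    have h2 := y.2
    rw [det_fin_two] at h2
    rw [det_fin_two_of]
    have hk' : y.1 0 1 = (q : ℤ) * ((M * q * q : ℕ) * k) := by rw [hk]; push_cast; ring
    linear_combination h2 + (y.1 1 0) * hk'
  have hcast : ∀ a : ℤ, (a : ZMod (M * q * q)) =
      ZMod.castHom (dvd_mul_right (M * q * q) q) (ZMod (M * q * q)) (a : ZMod (M * q * q * q)) :=
    fun a => (map_intCast _ a).symm
  refine ⟨⟨X, hX⟩, ?_, Down.of_entries rfl ?_ rfl rfl⟩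
  · refine Gamma_mem.2 ⟨?_, ?_, ?_, ?_⟩
    · show ((y.1 0 0 : ℤ) : ZMod (M * q * q)) = 1
      rw [hcast, ha, map_one]
    · show ((((M * q * q : ℕ) : ℤ) * k : ℤ) : ZMod (M * q * q)) = 0
      rw [Int.cast_mul, Int.cast_natCast, ZMod.natCast_self, zero_mul]
    · show (((q : ℤ) * y.1 1 0 : ℤ) : ZMod (M * q * q)) = 0
      rw [Int.cast_mul, hcast (y.1 1 0), hc, map_zero, mul_zero]
    · show ((y.1 1 1 : ℤ) : ZMod (M * q * q)) = 1
      rw [hcast, hd, map_one]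
  · show (q : ℤ) * (((M * q * q : ℕ) : ℤ) * k) = y.1 0 1
    rw [hk]; push_cast; ring

theorem gamma_mono {M N : ℕ} (h : M ∣ N) : Gamma N ≤ Gamma M := fun g hg => by
  rw [Gamma_mem] at hg ⊢
  obtain ⟨h1, h2, h3, h4⟩ := hg
  refine ⟨?_, ?_, ?_, ?_⟩ <;> rw [← map_intCast (ZMod.castHom h (ZMod M))]
  · rw [h1, map_one]
  · rw [h2, map_zero]
  · rw [h3, map_zero]
  · rw [h4, map_one]

theorem coe_T_zpow_mul_lower (a b : ℤ) :
    ((ModularGroup.T ^ a : SL(2, ℤ)).1 * !![1, 0; b, 1] : MatZ) = !![1 + a * b, a; b, 1] := by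
  rw [ModularGroup.coe_T_zpow]
  ext i j
  fin_cases i <;> fin_cases j <;> simp [Matrix.mul_apply, Fin.sum_univ_two, mul_comm]

/-- A lower unipotent element. -/
def lowerU (b : ℤ) : SL(2, ℤ) := ⟨!![1, 0; b, 1], by simp [det_fin_two_of]⟩

theorem coe_lowerU (b : ℤ) : (lowerU b).1 = !![1, 0; b, 1] := rfl

/-- The word inducing `diag(x, x⁻¹)` modulo `q` and a unipotent modulo `N'`. -/
theorem exists_word {q N' : ℕ} [hq : Fact q.Prime] (hcop : q.Coprime N') (x0 : ℤ)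
    (hx0 : (x0 : ZMod q) ≠ 0) :
    ∃ (j₁ j₂ : ℤ) (g : SL(2, ℤ)),
      g = ModularGroup.T ^ x0 * lowerU (N' * j₁) * ModularGroup.T ^ (x0 - 1) * lowerU (N' * j₂) *
          ModularGroup.T ^ (-1 : ℤ) ∧
      (q : ℤ) ∣ g.1 0 1 ∧ (q : ℤ) ∣ g.1 1 0 ∧ (N' : ℤ) ∣ g.1 1 0 ∧
      (g.1 0 0 : ZMod q) = (x0 : ZMod q) ∧ (g.1 0 0 : ZMod N') = 1 := by
  have hN : (N' : ZMod q) ≠ 0 := fun h =>
    hq.out.coprime_iff_not_dvd.1 hcop ((ZMod.natCast_eq_zero_iff _ _).1 h)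
  obtain ⟨j₁, h1⟩ := ZMod.intCast_surjective (-((x0 : ZMod q)⁻¹ * (N' : ZMod q)⁻¹))
  obtain ⟨j₂, h2⟩ := ZMod.intCast_surjective ((N' : ZMod q)⁻¹)
  refine ⟨j₁, j₂, _, rfl, ?_⟩
  set g : SL(2, ℤ) := ModularGroup.T ^ x0 * lowerU (N' * j₁) * ModularGroup.T ^ (x0 - 1) *
    lowerU (N' * j₂) * ModularGroup.T ^ (-1 : ℤ)
  have hg : g.1 = !![1 + x0 * ((N' : ℤ) * j₁), x0; (N' : ℤ) * j₁, 1] *
      !![1 + (x0 - 1) * ((N' : ℤ) * j₂), x0 - 1; (N' : ℤ) * j₂, 1] * !![1, -1; 0, 1] := by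
    rw [← coe_T_zpow_mul_lower, ← coe_T_zpow_mul_lower]
    simp only [g, Matrix.SpecialLinearGroup.coe_mul, coe_lowerU, Matrix.mul_assoc]
    rw [ModularGroup.coe_T_zpow (-1)]
  have e1 : (N' : ZMod q) * (j₁ : ZMod q) = -(x0 : ZMod q)⁻¹ := by
    rw [h1]; field_simp
  have e2 : (N' : ZMod q) * (j₂ : ZMod q) = 1 := by rw [h2, mul_inv_cancel₀ hN]
  refine ⟨?_, ?_, ?_, ?_, ?_⟩
  · rw [← ZMod.intCast_zmod_eq_zero_iff_dvd, hg]
    simp [Matrix.mul_apply, Fin.sum_univ_two, e1, e2, mul_inv_cancel₀ hx0]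
  · rw [← ZMod.intCast_zmod_eq_zero_iff_dvd, hg]
    simp [Matrix.mul_apply, Fin.sum_univ_two, e1, e2]
    field_simp
    ring
  · refine ⟨j₁ * (1 + (x0 - 1) * ((N' : ℤ) * j₂)) + j₂, ?_⟩
    rw [hg]
    simp [Matrix.mul_apply, Fin.sum_univ_two]
    ring
  · rw [hg]
    simp [Matrix.mul_apply, Fin.sum_univ_two, e1, e2, mul_inv_cancel₀ hx0]
  · rw [hg]
    simp [Matrix.mul_apply, Fin.sum_univ_two]

section main

variable {A : Type*} [CommRing A] [IsDomain A] [CharZero A] {M : ℕ} [NeZero M]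
  {H : Subgroup (ZMod M)ˣ} {q : ℕ} [NeZero q] [Fact (q ∣ M)] [hq : Fact q.Prime]

/-- **Twists of classes ramified at `q` do not vanish.** -/
theorem tw_ne_zero {η : MulChar (ZMod q) A} (hη : η ≠ 1) {z : Hom1 (GamH M H) A} (hz0 : z ≠ 0)
    {N' : ℕ} (hM : M = q * N') (hcop : q.Coprime N') (ψ : (ZMod M)ˣ →* A)
    (hz : ∀ g, dia M H A g z = ψ (ulHom M g) • z) (u : (ZMod M)ˣ)
    (hu : ZMod.castHom (Dvd.intro_left q hM.symm) (ZMod N') (u : ZMod M) = 1)
    (hψ : ψ u ≠ 1) : tw M H q η z ≠ 0 := by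
  classical
  intro h0
  have hq0 : q ≠ 0 := hq.out.ne_zero
  haveI hnorm : (Gamma (M * q * q * q)).Normal := Gamma_normal _
  have hΓH : Gamma (M * q * q) ≤ GamH M H :=
    (gamma_mono ((dvd_mul_right M q).trans (dvd_mul_right _ q))).trans Gamma_le_GamH
  let F : SL(2, ℤ) → A := fun y =>
    if h : ∃ δ : GamH M H, Down q y (δ : SL(2, ℤ)) then hv z h.choose else 0
  have hF : ∀ y (δ : GamH M H), Down q y (δ : SL(2, ℤ)) → F y = hv z δ := fun y δ h => by
    have hex : ∃ δ : GamH M H, Down q y (δ : SL(2, ℤ)) := ⟨δ, h⟩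
    simp only [F, dif_pos hex]
    exact congrArg (hv z) (Subtype.ext (hex.choose_spec.unique hq0 h))
  let Inv : SL(2, ℤ) → A → Prop := fun g ε =>
    ∀ y ∈ Gamma (M * q * q * q), F (g * y * g⁻¹) = ε * F y
  have hmul : ∀ g g' ε ε', Inv g ε → Inv g' ε' → Inv (g * g') (ε * ε') := fun g g' ε ε' hg hg' y hy => by
    rw [show g * g' * y * (g * g')⁻¹ = g * (g' * y * g'⁻¹) * g⁻¹ by group,
      hg _ (hnorm.conj_mem y hy g'), hg' y hy, mul_assoc]
  have hinv : ∀ g, Inv g 1 → Inv g⁻¹ 1 := fun g hg y hy => by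
    have h := hg (g⁻¹ * y * g⁻¹⁻¹) (hnorm.conj_mem y hy g⁻¹)
    rw [show g * (g⁻¹ * y * g⁻¹⁻¹) * g⁻¹ = y by group, one_mul] at h
    rw [one_mul, h]
  have hone : Inv 1 1 := fun y _ => by rw [one_mul, inv_one, mul_one, one_mul]
  have hpow : ∀ g, Inv g 1 → ∀ n : ℤ, Inv (g ^ n) 1 := fun g hg n => by
    induction n using Int.induction_on with
    | zero => rw [zpow_zero]; exact hone
    | succ n ih =>
      have := hmul _ _ _ _ ih hg
      rwa [mul_one, ← _root_.zpow_add_one] at this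
    | pred n ih =>
      have := hmul _ _ _ _ ih (hinv g hg)
      rwa [mul_one, ← _root_.zpow_sub_one] at this
  have hT : Inv ModularGroup.T 1 := by
    intro y hy
    obtain ⟨x, hx, hyx⟩ := exists_down hq0 hy
    let δ₀ : GamH M H := ⟨x, hΓH hx⟩
    obtain ⟨δ₁, h1⟩ := exists_conj_deep (M := M) (H := H) (q := q) 1 x
      (gamma_mono (dvd_mul_right _ q) hx)
    have hd : Down q (ModularGroup.T * y * ModularGroup.T⁻¹) (δ₁ : SL(2, ℤ)) := by
      unfold Down at hyx ⊢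
      refine xm_cancel hq0 (u := 1) ?_
      have hDX : dm q * xm q 1 = (q : ℤ) • (ModularGroup.T.1 * dm q) := by
        rw [ModularGroup.coe_T]
        ext i j
        fin_cases i <;> fin_cases j <;> simp [dm, xm, Matrix.mul_apply, Fin.sum_univ_two]
      rw [Matrix.mul_assoc, ← h1, Matrix.mul_assoc _ (dm q), hDX, ← Matrix.mul_assoc, hDX,
        Matrix.smul_mul, Matrix.mul_smul, Matrix.mul_assoc, hyx]
      congr 1
      simp only [← Matrix.mul_assoc, ← Matrix.SpecialLinearGroup.coe_mul]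
      rw [inv_mul_cancel_right]
    rw [hF _ δ₁ hd, hF y δ₀ hyx, one_mul]
    exact invariant_of_tw_eq_zero hη h0 x hx δ₁ δ₀ h1 rfl
  have hG : ∀ (g : SL(2, ℤ)) (g₀ : GamH M ⊤), Down q g (g₀ : SL(2, ℤ)) →
      Inv g (ψ (ulHom M g₀)⁻¹) := by
    intro g g₀ hg y hy
    obtain ⟨x, hx, hyx⟩ := exists_down hq0 hy
    let δ₀ : GamH M H := ⟨x, hΓH hx⟩
    have hd : Down q (g * y * g⁻¹) (conjGam M H g₀ δ₀ : SL(2, ℤ)) := (hg.mul hyx).mul hg.inv
    have h := DFunLike.congr_fun (hz g₀⁻¹) (Additive.ofMul δ₀)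
    rw [hF _ _ hd, hF y δ₀ hyx, ← map_inv (ulHom M)]
    refine Eq.trans ?_ h
    show hv z _ = hv (dia M H A g₀⁻¹ z) δ₀
    rw [dia_apply, inv_inv]
  have hL : ∀ j : ℤ, Inv (lowerU (N' * j)) 1 := fun j => by
    have hmem : lowerU (q * (N' * j)) ∈ GamH M H := by
      refine ⟨(lowerU _).2, ⟨j, ?_⟩, 1, one_mem H, ?_⟩
      · show (q : ℤ) * ((N' : ℤ) * j) = (M : ℤ) * j
        rw [hM]; push_cast; ring
      · simp [lowerU]
    have h := hG (lowerU (N' * j)) ⟨lowerU (q * (N' * j)), GamH_le_top hmem⟩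
      (Down.of_entries rfl (by simp [lowerU]) rfl rfl)
    have h1 : ulHom M ⟨lowerU ((q : ℤ) * (N' * j)), GamH_le_top hmem⟩ = 1 :=
      Units.ext (by rw [ulHom_val]; simp [lowerU])
    rwa [h1, inv_one, map_one] at h
  have hqdvd : q ∣ M := Fact.out
  obtain ⟨x0, hx0⟩ := ZMod.intCast_surjective (ZMod.castHom hqdvd (ZMod q) (u : ZMod M))
  have hx0' : (x0 : ZMod q) ≠ 0 := by
    rw [hx0]
    exact (u.isUnit.map _).ne_zero
  obtain ⟨j₁, j₂, g, hgeq, ⟨b', hb'⟩, ⟨c', hc'⟩, hcN, haq, haN⟩ := exists_word hcop x0 hx0'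
  have hgInv : Inv g 1 := by
    rw [hgeq]
    have := hmul _ _ _ _ (hmul _ _ _ _ (hmul _ _ _ _ (hmul _ _ _ _ (hpow _ hT x0) (hL j₁))
      (hpow _ hT (x0 - 1))) (hL j₂)) (hpow _ hT (-1))
    simpa only [one_mul, mul_one] using this
  let X : MatZ := !![g.1 0 0, b'; q * g.1 1 0, g.1 1 1]
  have hX : X.det = 1 := by
    have h2 := g.2
    rw [det_fin_two] at h2
    rw [det_fin_two_of]
    linear_combination h2 + (g.1 1 0) * hb'
  have hXmem : (⟨X, hX⟩ : SL(2, ℤ)) ∈ GamH M ⊤ := by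
    rw [GamH_top]
    refine CongruenceSubgroup.Gamma0_mem.2 ?_
    show (((q : ℤ) * g.1 1 0 : ℤ) : ZMod M) = 0
    rw [ZMod.intCast_zmod_eq_zero_iff_dvd, hM, Nat.cast_mul]
    exact mul_dvd_mul_left _ hcN
  let g₀ : GamH M ⊤ := ⟨⟨X, hX⟩, hXmem⟩
  have hu' : ulHom M g₀ = u := by
    refine Units.ext ?_
    rw [ulHom_val]
    subst hM
    refine (ZMod.chineseRemainder hcop).injective (Prod.ext ?_ ?_)
    · have e1 : (ZMod.castHom hqdvd (ZMod q) ((g.1 0 0 : ℤ) : ZMod (q * N'))) =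
          ZMod.castHom hqdvd (ZMod q) (u : ZMod (q * N')) := by
        rw [map_intCast, haq, hx0]
      simpa [ZMod.chineseRemainder, g₀, X] using e1
    · have e2 : (ZMod.castHom (dvd_mul_left N' q) (ZMod N') ((g.1 0 0 : ℤ) : ZMod (q * N'))) =
          ZMod.castHom (dvd_mul_left N' q) (ZMod N') (u : ZMod (q * N')) := by
        rw [map_intCast, haN]
        exact hu.symm
      simpa [ZMod.chineseRemainder, g₀, X] using e2
  have hWInv : Inv g (ψ u⁻¹) := by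
    rw [← hu']
    exact hG g g₀ (Down.of_entries rfl hb'.symm rfl rfl)
  have hne : ψ u⁻¹ ≠ 1 := fun h => hψ (by
    have h2 : ψ u * ψ u⁻¹ = 1 := by rw [← map_mul, mul_inv_cancel, map_one]
    rwa [h, mul_one] at h2)
  have hzero : ∀ y ∈ Gamma (M * q * q * q), F y = 0 := fun y hy => by
    have h := (hWInv y hy).symm.trans (hgInv y hy)
    by_contra hne'
    exact hne (mul_right_cancel₀ hne' h)
  refine hz0 (AddMonoidHom.ext fun γ => ?_)
  show hv z γ.toMul = 0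
  generalize γ.toMul = γ
  have hdeep : Gamma (M * q * q * q * q) ≤ GamH M H :=
    ((gamma_mono (dvd_mul_right _ q)).trans (gamma_mono (dvd_mul_right _ q))).trans hΓH
  haveI hnorm' : (Gamma (M * q * q * q * q)).Normal := Gamma_normal _
  haveI : NeZero (M * q * q * q * q) :=
    ⟨by simp [NeZero.ne M, hq0]⟩
  set n := (Gamma (M * q * q * q * q)).index
  have hn : n ≠ 0 := Subgroup.FiniteIndex.index_ne_zero
  have hxn : (γ : SL(2, ℤ)) ^ n ∈ Gamma (M * q * q * q * q) := Subgroup.pow_index_mem _ _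
  -- `x = γ ^ n` is the conjugate of an element of deep level
  set x : SL(2, ℤ) := (γ : SL(2, ℤ)) ^ n with hxdef
  obtain ⟨ha, hb, hc, hd⟩ := Gamma_mem.1 hxn
  obtain ⟨l, hl⟩ := (ZMod.intCast_zmod_eq_zero_iff_dvd _ _).1 hc
  let Y : MatZ := !![x.1 0 0, q * x.1 0 1; ((M * q * q * q : ℕ) : ℤ) * l, x.1 1 1]
  have hl' : x.1 1 0 = (q : ℤ) * (((M * q * q * q : ℕ) : ℤ) * l) := by rw [hl]; push_cast; ring
  have hY : Y.det = 1 := by
    have h2 := x.2
    rw [det_fin_two] at h2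
    rw [det_fin_two_of]
    linear_combination h2 + (x.1 0 1) * hl'
  have hcast : ∀ a : ℤ, (a : ZMod (M * q * q * q)) =
      ZMod.castHom (dvd_mul_right (M * q * q * q) q) (ZMod (M * q * q * q))
        (a : ZMod (M * q * q * q * q)) := fun a => (map_intCast _ a).symm
  have hYmem : (⟨Y, hY⟩ : SL(2, ℤ)) ∈ Gamma (M * q * q * q) := by
    refine Gamma_mem.2 ⟨?_, ?_, ?_, ?_⟩
    · show ((x.1 0 0 : ℤ) : ZMod (M * q * q * q)) = 1
      rw [hcast, ha, map_one]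
    · show (((q : ℤ) * x.1 0 1 : ℤ) : ZMod (M * q * q * q)) = 0
      rw [Int.cast_mul, hcast (x.1 0 1), hb, map_zero, mul_zero]
    · show ((((M * q * q * q : ℕ) : ℤ) * l : ℤ) : ZMod (M * q * q * q)) = 0
      rw [Int.cast_mul, Int.cast_natCast, ZMod.natCast_self, zero_mul]
    · show ((x.1 1 1 : ℤ) : ZMod (M * q * q * q)) = 1
      rw [hcast, hd, map_one]
  have hFz := hF ⟨Y, hY⟩ (γ ^ n) (Down.of_entries
    (by rw [Subgroup.coe_pow, ← hxdef]; rfl) (by rw [Subgroup.coe_pow, ← hxdef]; rfl)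
    (by rw [Subgroup.coe_pow, ← hxdef]; exact hl') (by rw [Subgroup.coe_pow, ← hxdef]; rfl))
  rw [hzero _ hYmem] at hFz
  have hpw : hv z (γ ^ n) = n • hv z γ := map_nsmul z n (Additive.ofMul γ)
  rw [hpw, nsmul_eq_mul] at hFz
  exact (mul_eq_zero.1 hFz.symm).resolve_left (Nat.cast_ne_zero.2 hn)

end main

end FA.Twist
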