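import Fermat.Agent.HeckeH1.Diamond
import Fermat.Agent.HeckeH1.Ops
import Mathlib.NumberTheory.MulChar.Basic

/-!
# Translations by multiples of `1 / q` and the twist of homomorphisms by a character modulo `q`

`X_u = [[q, u], [0, q]]` is a scalar multiple of the translation by `u / q`.  It conjugates
elements of level `M q` into level `M` when `q ∣ M`; the sum of these conjugations weighted by a
character `η` modulo `q` multiplies the eigenvalue of `T ℓ` by `η⁻¹(ℓ)` and the diamond character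
by `η⁻²`.
-/

set_option autoImplicit false
set_option linter.unusedSectionVars false

noncomputable section

namespace FA.Twist

open Matrix FA.HeckeH1
open scoped MatrixGroups

/-- The integral translation by `u / q`. -/
def xm (q : ℕ) (u : ℤ) : MatZ := !![(q : ℤ), u; 0, (q : ℤ)]

theorem det_xm (q : ℕ) (u : ℤ) : (xm q u).det = (q : ℤ) ^ 2 := by
  rw [xm, det_fin_two_of]; ring

theorem det_xm_ne {q : ℕ} (hq : q ≠ 0) (u : ℤ) : (xm q u).det ≠ 0 := by
  rw [det_xm]; exact pow_ne_zero _ (Int.natCast_ne_zero.2 hq)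

theorem xm_mul (q : ℕ) (u v : ℤ) : xm q u * xm q v = (q : ℤ) • xm q (u + v) := by
  ext i j
  fin_cases i <;> fin_cases j <;> simp [xm, Matrix.mul_apply, Fin.sum_univ_two, mul_comm, mul_add]
  ring

theorem xm_cancel {q : ℕ} (hq : q ≠ 0) {u : ℤ} {Y Y' : MatZ} (h : Y * xm q u = Y' * xm q u) :
    Y = Y' := by
  have h2 := congrArg (fun Z : MatZ => Z * (xm q u).adjugate) h
  simp only [Matrix.mul_assoc, mul_adjugate, Matrix.mul_smul, Matrix.mul_one] at h2
  exact smul_right_injective MatZ (det_xm_ne hq u) h2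

section shift

variable {M : ℕ} {H : Subgroup (ZMod M)ˣ} {q : ℕ}

/-- **The basic shift.** -/
theorem exists_shift (hq : q ≠ 0) (hqM : q ∣ M) {H₂ : Subgroup (ZMod (M * q))ˣ} {n : ℤ} {X : MatZ}
    (hX : X ∈ Dl (M * q) H₂ n) (hH : ∃ w ∈ H, (w : ZMod M) = (X 0 0 : ZMod M)) {u v : ℤ}
    (huv : (q : ℤ) ∣ u * X 1 1 - v * X 0 0) :
    ∃ Y ∈ Dl M H n, ((Y 0 0 : ℤ) : ZMod M) = (X 0 0 : ZMod M) ∧ xm q u * X = Y * xm q v := by
  obtain ⟨hdet, ⟨k, hk⟩, -⟩ := hX
  obtain ⟨N', hN'⟩ := hqM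
  obtain ⟨w, hw⟩ := huv
  have hk' : X 1 0 = (q : ℤ) * ((M : ℤ) * k) := by rw [hk]; push_cast; ring
  have hM : (M : ℤ) = (q : ℤ) * N' := by rw [hN']; push_cast; rfl
  let Y : MatZ := !![X 0 0 + u * (M * k), X 0 1 + w - u * v * (N' * k);
    X 1 0, X 1 1 - v * (M * k)]
  have hmod : ((Y 0 0 : ℤ) : ZMod M) = (X 0 0 : ZMod M) := by simp [Y]
  have he : xm q u * X = Y * xm q v := by
    ext i j
    fin_cases i <;> fin_cases j <;> simp [xm, Y, Matrix.mul_apply, Fin.sum_univ_two]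
    · linear_combination u * hk'
    · rw [show (M : ℤ) = q * N' from hM]
      linear_combination hw
    · ring
    · linear_combination (-v) * hk'
  obtain ⟨h, hh, hha⟩ := hH
  refine ⟨Y, ⟨?_, ⟨q * k, by simp only [Y]; simp [hk']; ring⟩, h, hh, hha.trans hmod.symm⟩,
    hmod, he⟩
  have h2 := congrArg Matrix.det he
  rw [det_mul, det_mul, det_xm, det_xm, hdet, mul_comm _ ((q : ℤ) ^ 2)] at h2
  exact (mul_left_cancel₀ (pow_ne_zero 2 (Int.natCast_ne_zero.2 hq)) h2).symm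

variable (M H q)

/-- Reduction of units to level `M`. -/
def toM : (ZMod (M * q))ˣ →* (ZMod M)ˣ := ZMod.unitsMap (dvd_mul_right M q)

/-- Reduction of units modulo `q`. -/
def toQ : (ZMod (M * q))ˣ →* (ZMod q)ˣ := ZMod.unitsMap (dvd_mul_left q M)

/-- Elements over `H` with square one modulo `q`. -/
def Hsq : Subgroup (ZMod (M * q))ˣ :=
  H.comap (toM M q) ⊓ ((powMonoidHom 2).comp (toQ M q)).ker

variable {M H q}

theorem toM_val {u : (ZMod (M * q))ˣ} {a : ℤ} (h : (u : ZMod (M * q)) = (a : ZMod (M * q))) :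
    (toM M q u : ZMod M) = (a : ZMod M) := by
  show ZMod.castHom (dvd_mul_right M q) (ZMod M) (u : ZMod (M * q)) = _
  rw [h, map_intCast]

theorem toQ_val {u : (ZMod (M * q))ˣ} {a : ℤ} (h : (u : ZMod (M * q)) = (a : ZMod (M * q))) :
    (toQ M q u : ZMod q) = (a : ZMod q) := by
  show ZMod.castHom (dvd_mul_left q M) (ZMod q) (u : ZMod (M * q)) = _
  rw [h, map_intCast]

theorem Dl_cast {H₂ : Subgroup (ZMod (M * q))ˣ} {n : ℤ} {X : MatZ} (hX : X ∈ Dl (M * q) H₂ n)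
    (hle : H₂ ≤ H.comap (toM M q)) : ∃ w ∈ H, (w : ZMod M) = (X 0 0 : ZMod M) := by
  obtain ⟨-, -, u, hu, hua⟩ := hX
  exact ⟨toM M q u, hle hu, toM_val hua⟩

/-- Diagonal entries modulo `q` of an element of determinant `n`. -/
theorem diag_mod {H₂ : Subgroup (ZMod (M * q))ˣ} {n : ℤ} {X : MatZ} (hX : X ∈ Dl (M * q) H₂ n) :
    (X 0 0 : ZMod q) * (X 1 1 : ZMod q) = (n : ZMod q) := by
  obtain ⟨hd, hc, -⟩ := hX
  have hc' : (X 1 0 : ZMod q) = 0 := (ZMod.intCast_zmod_eq_zero_iff_dvd _ _).2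
    ((Int.natCast_dvd_natCast.2 (dvd_mul_left q M)).trans hc)
  have := congrArg (fun x : ℤ => (x : ZMod q)) hd
  simp only [det_fin_two, Int.cast_sub, Int.cast_mul, hc', mul_zero, sub_zero] at this
  exact this

theorem gl_xm_mul {g h : SL(2, ℤ)} {u v : ℤ} (hq : q ≠ 0)
    (he : xm q u * g.1 = h.1 * xm q v) : gl (xm q u) * glQ g = glQ h * gl (xm q v) := by
  rw [← gl_coe, ← gl_coe, ← gl_mul (det_xm_ne hq u) (by rw [g.2]; exact one_ne_zero),
    ← gl_mul (by rw [h.2]; exact one_ne_zero) (det_xm_ne hq v), he]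

variable [NeZero q]

theorem gamH_sq_dvd (g : GamH (M * q) (Hsq M H q)) (u : ℤ) :
    (q : ℤ) ∣ u * (g : SL(2, ℤ)).1 1 1 - u * (g : SL(2, ℤ)).1 0 0 := by
  rw [← mul_sub]
  refine Dvd.dvd.mul_left ?_ u
  rw [← ZMod.intCast_zmod_eq_zero_iff_dvd, Int.cast_sub, sub_eq_zero]
  obtain ⟨-, -, w, hw, hwa⟩ := g.2
  have h1 : ((g : SL(2, ℤ)).1 0 0 : ZMod q) * ((g : SL(2, ℤ)).1 1 1 : ZMod q) = 1 := by
    simpa using diag_mod g.2
  have h2 : toQ M q w ^ 2 = 1 := MonoidHom.mem_ker.1 hw.2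
  have h2' : ((g : SL(2, ℤ)).1 0 0 : ZMod q) ^ 2 = 1 := by
    rw [← toQ_val hwa, ← Units.val_pow_eq_pow_val, h2, Units.val_one]
  linear_combination ((g : SL(2, ℤ)).1 0 0 : ZMod q) * h1 - ((g : SL(2, ℤ)).1 1 1 : ZMod q) * h2'

variable (M H q) [hqM : Fact (q ∣ M)]

/-- Conjugation by the translation by `u / q`. -/
def beta (u : ℤ) : Corr (GamH M H) (GamH (M * q) (Hsq M H q)) :=
  Corr.single (gl (xm q u)) fun γ hγ => by
    obtain ⟨Y, hY, -, he⟩ := exists_shift (H := H) (NeZero.ne q) hqM.out hγ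
      (Dl_cast hγ inf_le_left) (gamH_sq_dvd ⟨γ, hγ⟩ u)
    obtain ⟨g, hg, rfl⟩ := Dl.toGamH hY
    exact ⟨g, hg, gl_xm_mul (NeZero.ne q) he⟩

variable {M H q}

theorem beta_apply {A : Type*} [AddCommGroup A] (u : ℤ) (z : Hom1 (GamH M H) A)
    (x : GamH (M * q) (Hsq M H q)) (δ : GamH M H)
    (he : xm q u * (x : SL(2, ℤ)).1 = (δ : SL(2, ℤ)).1 * xm q u) :
    hv ((beta M H q u).act z) x = hv z δ :=
  Corr.single_act _ _ z x δ (gl_xm_mul (NeZero.ne q) he)

theorem beta_congr {A : Type*} [AddCommGroup A] {u v : ℤ} (h : (u : ZMod q) = (v : ZMod q))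
    (z : Hom1 (GamH M H) A) : (beta M H q u).act z = (beta M H q v).act z := by
  refine Corr.Same.act_eq ⟨Equiv.refl Unit, fun _ => ?_⟩ z
  obtain ⟨k, hk⟩ := (ZMod.intCast_eq_intCast_iff_dvd_sub v u q).1 h.symm
  refine ⟨⟨ModularGroup.T ^ k, Subgroup.zpow_mem _ T_mem_GamH k⟩, ?_⟩
  show gl (xm q u) = glQ (ModularGroup.T ^ k) * gl (xm q v)
  rw [← gl_coe, ← gl_mul (by rw [(ModularGroup.T ^ k).2]; exact one_ne_zero)
    (det_xm_ne (NeZero.ne q) v), ModularGroup.coe_T_zpow]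
  congr 1
  ext i j
  fin_cases i <;> fin_cases j <;> simp [xm, Matrix.mul_apply, Fin.sum_univ_two]
  linear_combination hk

/-- Translations intertwine the Hecke correspondences. -/
theorem Tc_beta {A : Type*} [AddCommGroup A] (ℓ : ℕ) [Fact ℓ.Prime] (hℓq : ¬ ℓ ∣ q) (u : ℤ)
    (z : Hom1 (GamH M H) A) :
    (Tc (M * q) (Hsq M H q) ℓ).act ((beta M H q u).act z) =
      (beta M H q (u * ℓ)).act ((Tc M H ℓ).act z) := by
  classical
  have hℓ : ℓ.Prime := Fact.out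
  rw [← Corr.comp_act, ← Corr.comp_act]
  refine Corr.Same.act_eq ?_ z
  have hq := NeZero.ne q
  have hd : ∀ i, (rep (M * q) ℓ i).det ≠ 0 := fun i => by
    rw [rep_det hℓ]; exact_mod_cast hℓ.ne_zero
  have hdM : ∀ k, (rep M ℓ k).det ≠ 0 := fun k => by
    rw [rep_det hℓ]; exact_mod_cast hℓ.ne_zero
  have h1 : ∀ i : RIdx (M * q) ℓ, ∃ k : RIdx M ℓ, ∃ h : GamH M H,
      gl (xm q u) * gl (rep (M * q) ℓ i) =
        glQ (h : SL(2, ℤ)) * (gl (rep M ℓ k) * gl (xm q (u * ℓ))) := fun i => by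
    have hm := rep_mem hℓ (Hsq M H q) i
    have h00 : ((rep (M * q) ℓ i) 0 0 : ZMod q) = 1 := by
      have := congrArg (ZMod.castHom (dvd_mul_left q M) (ZMod q)) (rep_ul (M := M * q) hℓ i)
      rwa [map_intCast, map_one] at this
    have huv : (q : ℤ) ∣ u * (rep (M * q) ℓ i) 1 1 - u * ℓ * (rep (M * q) ℓ i) 0 0 := by
      rw [← ZMod.intCast_zmod_eq_zero_iff_dvd]
      have h11 := diag_mod hm
      rw [h00, one_mul] at h11
      simp [h00, h11]
    obtain ⟨Y, hY, -, he⟩ := exists_shift (H := H) hq hqM.out hm (Dl_cast hm inf_le_left) huv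
    obtain ⟨k, h, e⟩ := exists_class hℓ hY
    refine ⟨k, h, ?_⟩
    rw [← gl_mul (det_xm_ne hq u) (hd i), he, gl_mul (Dl.det_ne (by exact_mod_cast hℓ.ne_zero) hY)
      (det_xm_ne hq _), e, mul_assoc]
  choose k h e using h1
  have hk : Function.Injective k := fun i i' hii => by
    have e1 := e i
    rw [hii] at e1
    have e2 : gl (xm q u) * gl (rep (M * q) ℓ i) =
        glQ ((h i * (h i')⁻¹ : GamH M H) : SL(2, ℤ)) * gl (xm q u) * gl (rep (M * q) ℓ i') := by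
      rw [mul_assoc, e i', e1, Subgroup.coe_mul, map_mul, Subgroup.coe_inv, map_inv]
      group
    set g : SL(2, ℤ) := ((h i * (h i')⁻¹ : GamH M H) : SL(2, ℤ))
    rw [← gl_mul (det_xm_ne hq u) (hd i), ← gl_coe, mul_assoc,
      ← gl_mul (det_xm_ne hq u) (hd i'),
      ← gl_mul (by rw [g.2]; exact one_ne_zero)
        (by rw [det_mul]; exact mul_ne_zero (det_xm_ne hq u) (hd i'))] at e2
    have e3 := gl_inj (by rw [det_mul]; exact mul_ne_zero (det_xm_ne hq u) (hd i))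
      (by rw [det_mul, g.2, one_mul, det_mul]; exact mul_ne_zero (det_xm_ne hq u) (hd i')) e2
    have e4 := congrArg (fun Z : MatZ => (xm q u).adjugate * Z) e3
    simp only [← Matrix.mul_assoc, adjugate_mul, Matrix.smul_mul, Matrix.one_mul] at e4
    -- the conjugate of `g` is rational with determinant one, hence the class is the same
    let Z : MatZ := (xm q u).adjugate * g.1 * xm q u
    have e5 : (xm q u).det • rep (M * q) ℓ i = Z * rep (M * q) ℓ i' := e4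
    have hdiv : ∀ a b, (xm q u).det ∣ Z a b * ℓ := fun a b => by
      have e6 := congrArg (fun W : MatZ => W * (rep (M * q) ℓ i').adjugate) e5
      simp only [Matrix.smul_mul, Matrix.mul_assoc, mul_adjugate, rep_det hℓ, Matrix.mul_smul,
        Matrix.mul_one] at e6
      have e7 := congrFun (congrFun e6 a) b
      simp only [Matrix.smul_apply, smul_eq_mul] at e7
      exact ⟨(rep (M * q) ℓ i * (rep (M * q) ℓ i').adjugate) a b, by rw [mul_comm]; exact e7.symm⟩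
    · have hcop : IsCoprime (xm q u).det (ℓ : ℤ) := by
        rw [det_xm]
        refine IsCoprime.pow_left ?_
        rw [Int.isCoprime_iff_nat_coprime, Int.natAbs_natCast, Int.natAbs_natCast]
        exact (hℓ.coprime_iff_not_dvd.2 hℓq).symm
      have hZ : ∀ a b, (xm q u).det ∣ Z a b := fun a b => hcop.dvd_of_dvd_mul_right (hdiv a b)
      choose W hW using hZ
      have hW' : Z = (xm q u).det • (Matrix.of W) := by
        ext a b; exact hW a b
      rw [hW', Matrix.smul_mul] at e5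
      have e8 := smul_right_injective MatZ (det_xm_ne hq u) e5
      have hWdet : (Matrix.of W).det = 1 := by
        have := congrArg Matrix.det e8
        rw [det_mul, rep_det hℓ, rep_det hℓ] at this
        exact mul_right_cancel₀ (by exact_mod_cast hℓ.ne_zero) (this.symm.trans (one_mul _).symm)
      refine rep_inj hℓ ((Matrix.one_mul _).trans e8) (not_dvd_det_one hℓ det_one)
        (not_dvd_det_one hℓ hWdet)
  have hiff : ℓ ∣ M * q ↔ ℓ ∣ M := ⟨fun hd' => ((Nat.Prime.dvd_mul hℓ).1 hd').elim id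
    fun hq' => hq'.trans hqM.out, fun hd' => hd'.mul_right q⟩
  have hcard : Fintype.card (RIdx (M * q) ℓ) = Fintype.card (RIdx M ℓ) :=
    Fintype.card_congr (Equiv.subtypeEquivRight fun x => by simp only [hiff])
  refine ⟨(Equiv.punitProd _).trans ((Equiv.ofBijective k
    ((Fintype.bijective_iff_injective_and_card k).2 ⟨hk, hcard⟩)).trans (Equiv.prodPUnit _).symm),
    fun x => ⟨h x.2, e x.2⟩⟩

/-- Translations intertwine the diamond operators. -/
theorem dia_beta {A : Type*} [CommRing A] (g : GamH (M * q) ⊤) (u v : ℤ)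
    (huv : (q : ℤ) ∣ u * ((g⁻¹ : GamH (M * q) ⊤) : SL(2, ℤ)).1 1 1 -
      v * ((g⁻¹ : GamH (M * q) ⊤) : SL(2, ℤ)).1 0 0) :
    ∃ g' : GamH M ⊤, ulHom M g' = toM M q (ulHom (M * q) g) ∧
      ∀ z : Hom1 (GamH M H) A,
        dia (M * q) (Hsq M H q) A g ((beta M H q u).act z) =
          (beta M H q v).act (dia M H A g' z) := by
  have hq := NeZero.ne q
  obtain ⟨Y, hY, hmod, he⟩ := exists_shift (H := (⊤ : Subgroup (ZMod M)ˣ)) hq hqM.out
    (g⁻¹ : GamH (M * q) ⊤).2 (Dl_cast (g⁻¹ : GamH (M * q) ⊤).2 (by simp)) huv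
  obtain ⟨δ₀, hδ, rfl⟩ := Dl.toGamH hY
  let δ : GamH M ⊤ := ⟨δ₀, hδ⟩
  refine ⟨δ⁻¹, ?_, fun z => ?_⟩
  · rw [map_inv, inv_eq_iff_eq_inv, ← map_inv, ← map_inv]
    exact Units.ext (by rw [ulHom_val, toM_val (ulHom_val _)]; exact hmod)
  apply AddMonoidHom.ext
  intro x
  show hv ((beta M H q u).act z) (conjGam (M * q) (Hsq M H q) g⁻¹ x.toMul) =
    hv ((beta M H q v).act (dia M H A δ⁻¹ z)) x.toMul
  generalize x.toMul = x
  obtain ⟨Y', hY', -, he'⟩ := exists_shift (H := H) hq hqM.out x.2 (Dl_cast x.2 inf_le_left)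
    (gamH_sq_dvd x v)
  obtain ⟨x', hx', rfl⟩ := Dl.toGamH hY'
  rw [beta_apply v (dia M H A δ⁻¹ z) x ⟨x', hx'⟩ he', dia_apply, inv_inv]
  refine beta_apply u z _ _ ?_
  show xm q u * (((g⁻¹ : GamH (M * q) ⊤) : SL(2, ℤ)) * (x : SL(2, ℤ)) *
      ((g⁻¹ : GamH (M * q) ⊤) : SL(2, ℤ))⁻¹).1 = (δ₀ * x' * δ₀⁻¹).1 * xm q u
  set G : SL(2, ℤ) := ((g⁻¹ : GamH (M * q) ⊤) : SL(2, ℤ))
  have hinv : xm q v * G⁻¹.1 = δ₀⁻¹.1 * xm q u := by
    have h1 := congrArg (fun Z : MatZ => δ₀⁻¹.1 * Z * G⁻¹.1) he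
    simp only [Matrix.mul_assoc] at h1
    rw [← Matrix.SpecialLinearGroup.coe_mul, mul_inv_cancel, Matrix.SpecialLinearGroup.coe_one,
      Matrix.mul_one, ← Matrix.mul_assoc δ₀⁻¹.1 δ₀.1, ← Matrix.SpecialLinearGroup.coe_mul,
      inv_mul_cancel, Matrix.SpecialLinearGroup.coe_one, Matrix.one_mul] at h1
    exact h1.symm
  simp only [Matrix.SpecialLinearGroup.coe_mul]
  rw [← Matrix.mul_assoc, ← Matrix.mul_assoc, he, Matrix.mul_assoc δ₀.1, he', Matrix.mul_assoc,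
    Matrix.mul_assoc, hinv]
  simp only [Matrix.mul_assoc]

end shift

end FA.Twist
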