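import Fermat.Agent.Twist.Shift
import Mathlib.NumberTheory.JacobiSum.Basic

/-!
# The twist of a homomorphism by a character modulo a prime

`tw η z = ∑ u, η u • (z translated by u / q)`.  If `η ≠ 1` and the diamond character of `z` is
nontrivial on the units congruent to `1` modulo `M / q`, then `tw η z ≠ 0`.
-/

set_option autoImplicit false
set_option linter.unusedSectionVars false

noncomputable section

namespace FA.Twist

open Matrix FA.HeckeH1
open scoped MatrixGroups

variable {A : Type*} [CommRing A] (M : ℕ) (H : Subgroup (ZMod M)ˣ) (q : ℕ) [NeZero q]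
  [Fact (q ∣ M)]

/-- The twist. -/
def tw (η : MulChar (ZMod q) A) : Hom1 (GamH M H) A →ₗ[A] Hom1 (GamH (M * q) (Hsq M H q)) A :=
  ∑ u : ZMod q, η u • (beta M H q (u.val : ℤ)).actLin

variable {M H q}

theorem tw_apply (η : MulChar (ZMod q) A) (z : Hom1 (GamH M H) A) :
    tw M H q η z = ∑ u : ZMod q, η u • (beta M H q (u.val : ℤ)).act z := by
  simp only [tw, LinearMap.sum_apply, LinearMap.smul_apply, Corr.actLin_apply]

theorem val_cast (u : ZMod q) : (((u.val : ℕ) : ℤ) : ZMod q) = u := by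
  rw [Int.cast_natCast, ZMod.natCast_zmod_val]

theorem tw_mem_Par (η : MulChar (ZMod q) A) {z : Hom1 (GamH M H) A} (hz : z ∈ Par (GamH M H) A) :
    tw M H q η z ∈ Par (GamH (M * q) (Hsq M H q)) A := by
  rw [tw_apply]
  exact Submodule.sum_mem _ fun u _ => Submodule.smul_mem _ _ (Par_act _ hz)

/-- The twist multiplies the eigenvalue of `T ℓ` by `η⁻¹(ℓ)`. -/
theorem Tc_tw (η : MulChar (ZMod q) A) (z : Hom1 (GamH M H) A) (ℓ : ℕ) [Fact ℓ.Prime]
    (hℓq : ¬ ℓ ∣ q) :
    (Tc (M * q) (Hsq M H q) ℓ).act (tw M H q η z) =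
      η⁻¹ (ℓ : ZMod q) • tw M H q η ((Tc M H ℓ).act z) := by
  have hℓ : ℓ.Prime := Fact.out
  obtain ⟨l, hl⟩ : IsUnit (ℓ : ZMod q) :=
    (ZMod.isUnit_iff_coprime ℓ q).2 (hℓ.coprime_iff_not_dvd.2 hℓq)
  rw [tw_apply, tw_apply, map_sum, Finset.smul_sum,
    ← Equiv.sum_comp (Units.mulRight l) (fun u : ZMod q =>
      η⁻¹ (ℓ : ZMod q) • η u • (beta M H q (u.val : ℤ)).act ((Tc M H ℓ).act z))]
  refine Finset.sum_congr rfl fun u _ => ?_
  rw [Corr.act_smul, Tc_beta ℓ hℓq, smul_smul]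
  have e : η⁻¹ (ℓ : ZMod q) * η (Units.mulRight l u) = η u := by
    rw [Units.mulRight_apply, map_mul, ← hl, mul_comm (η u), ← mul_assoc, ← MulChar.mul_apply,
      inv_mul_cancel, MulChar.one_apply_coe, one_mul]
  rw [e]
  refine congrArg _ (beta_congr ?_ _)
  rw [Int.cast_mul, val_cast, val_cast, Units.mulRight_apply, Int.cast_natCast, hl]

/-- The twist divides the diamond character by `η²`. -/
theorem dia_tw (η : MulChar (ZMod q) A) (z : Hom1 (GamH M H) A) (ψ : (ZMod M)ˣ →* A)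
    (hz : ∀ g, dia M H A g z = ψ (ulHom M g) • z) (g : GamH (M * q) ⊤) :
    dia (M * q) (Hsq M H q) A g (tw M H q η z) =
      (ψ (toM M q (ulHom (M * q) g)) * η⁻¹ ((toQ M q (ulHom (M * q) g) : ZMod q) ^ 2)) •
        tw M H q η z := by
  set a : (ZMod q)ˣ := toQ M q (ulHom (M * q) g) ^ 2
  rw [tw_apply, map_sum, Finset.smul_sum]
  conv_rhs => rw [← Equiv.sum_comp (Units.mulRight a) (fun u : ZMod q =>
      (ψ (toM M q (ulHom (M * q) g)) * η⁻¹ ((toQ M q (ulHom (M * q) g) : ZMod q) ^ 2)) •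
        η u • (beta M H q (u.val : ℤ)).act z)]
  refine Finset.sum_congr rfl fun u _ => ?_
  set G : SL(2, ℤ) := ((g⁻¹ : GamH (M * q) ⊤) : SL(2, ℤ))
  have hul : (G.1 0 0 : ZMod q) = ((toQ M q (ulHom (M * q) g))⁻¹ : (ZMod q)ˣ) := by
    rw [← map_inv, ← map_inv]
    exact (toQ_val (ulHom_val g⁻¹)).symm
  have hd : (G.1 0 0 : ZMod q) * (G.1 1 1 : ZMod q) = 1 := by
    have h := diag_mod (g⁻¹ : GamH (M * q) ⊤).2
    rwa [Int.cast_one] at h
  have h11 : (G.1 1 1 : ZMod q) = (toQ M q (ulHom (M * q) g) : ZMod q) := by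
    rw [hul] at hd
    exact (Units.eq_inv_of_mul_eq_one_left (u := (toQ M q (ulHom (M * q) g))⁻¹)
      (a := (G.1 1 1 : ZMod q)) hd).trans (by rw [inv_inv])
  obtain ⟨g', hg', hdia⟩ := dia_beta (H := H) (A := A) g (u.val : ℤ) (((u * (a : ZMod q)).val : ℕ) : ℤ) (by
    rw [← ZMod.intCast_zmod_eq_zero_iff_dvd]
    simp only [Int.cast_sub, Int.cast_mul, val_cast]
    show u * (G.1 1 1 : ZMod q) - u * (a : ZMod q) * (G.1 0 0 : ZMod q) = 0
    rw [hul, h11]
    simp only [a, Units.val_pow_eq_pow_val, sub_eq_zero]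
    rw [mul_assoc u, pow_two, mul_assoc, Units.mul_inv, mul_one])
  rw [map_smul, hdia, hz, Corr.act_smul, hg', smul_smul, smul_smul, Units.mulRight_apply]
  congr 1
  rw [map_mul, ← Units.val_pow_eq_pow_val, mul_assoc, mul_comm (η u) (η (a : ZMod q)),
    ← mul_assoc (η⁻¹ _), ← MulChar.mul_apply, inv_mul_cancel, MulChar.one_apply_coe, one_mul,
    mul_comm]

/-- The eigenvalue equation after twisting. -/
theorem Tc_tw_eigen (η : MulChar (ZMod q) A) {z : Hom1 (GamH M H) A} (ℓ : ℕ) [Fact ℓ.Prime]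
    (hℓq : ¬ ℓ ∣ q) {c : A} (hc : (Tc M H ℓ).act z = c • z) :
    (Tc (M * q) (Hsq M H q) ℓ).act (tw M H q η z) =
      (η⁻¹ (ℓ : ZMod q) * c) • tw M H q η z := by
  rw [Tc_tw η z ℓ hℓq, hc, map_smul, smul_smul]

section injective

variable [IsDomain A] [CharZero A] [hq : Fact q.Prime]

/-- The value at the conjugate by the translation by `t / q`. -/
theorem exists_conj_deep (t : ℤ) (x : SL(2, ℤ)) (hx : x ∈ CongruenceSubgroup.Gamma (M * q)) :
    ∃ δ : GamH M H, xm q t * x.1 = (δ : SL(2, ℤ)).1 * xm q t := by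
  have hmem : x ∈ GamH (M * q) (Hsq M H q) := Gamma_le_GamH hx
  obtain ⟨Y, hY, -, he⟩ := exists_shift (H := H) (NeZero.ne q) (Fact.out : q ∣ M) hmem
    (Dl_cast hmem inf_le_left) (gamH_sq_dvd ⟨x, hmem⟩ t)
  obtain ⟨g, hg, rfl⟩ := Dl.toGamH hY
  exact ⟨⟨g, hg⟩, he⟩

/-- A vanishing twist forces invariance under the translation by `1 / q` on a deep level. -/
theorem invariant_of_tw_eq_zero {η : MulChar (ZMod q) A} (hη : η ≠ 1) {z : Hom1 (GamH M H) A}
    (h0 : tw M H q η z = 0) (x : SL(2, ℤ)) (hx : x ∈ CongruenceSubgroup.Gamma (M * q * q))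
    (δ₁ δ₀ : GamH M H) (h1 : xm q 1 * x.1 = (δ₁ : SL(2, ℤ)).1 * xm q 1)
    (h0' : x = (δ₀ : SL(2, ℤ))) : hv z δ₁ = hv z δ₀ := by
  classical
  have hq0 := NeZero.ne q
  haveI : Fact (q ∣ M * q) := ⟨dvd_mul_left q M⟩
  choose D hD using fun t : ZMod q => exists_conj_deep (M := M) (H := H) (q := q) (t.val : ℤ) x
    (by
      rw [CongruenceSubgroup.Gamma_mem] at hx ⊢
      refine ⟨?_, ?_, ?_, ?_⟩
      all_goals first
        | (have h' := congrArg (ZMod.castHom (dvd_mul_right (M * q) q) (ZMod (M * q))) hx.1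
           rw [map_intCast, map_one] at h'; exact h')
        | (have h' := congrArg (ZMod.castHom (dvd_mul_right (M * q) q) (ZMod (M * q))) hx.2.1
           rw [map_intCast, map_zero] at h'; exact h')
        | (have h' := congrArg (ZMod.castHom (dvd_mul_right (M * q) q) (ZMod (M * q))) hx.2.2.1
           rw [map_intCast, map_zero] at h'; exact h')
        | (have h' := congrArg (ZMod.castHom (dvd_mul_right (M * q) q) (ZMod (M * q))) hx.2.2.2
           rw [map_intCast, map_one] at h'; exact h'))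
  let B : ZMod q → A := fun t => hv z (D t)
  have hB : ∀ (t : ℤ) (δ : GamH M H), xm q t * x.1 = (δ : SL(2, ℤ)).1 * xm q t →
      hv z δ = B (t : ZMod q) := by
    intro t δ hδ
    obtain ⟨k, hk⟩ := (ZMod.intCast_eq_intCast_iff_dvd_sub ((t : ZMod q).val : ℤ) t q).1
      (by rw [val_cast])
    let Tk : GamH M H := ⟨ModularGroup.T ^ k, Subgroup.zpow_mem _ T_mem_GamH k⟩
    have hT : xm q t = (Tk : SL(2, ℤ)).1 * xm q ((t : ZMod q).val : ℤ) := by
      show xm q t = (ModularGroup.T ^ k).1 * _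
      rw [ModularGroup.coe_T_zpow]
      ext i j
      fin_cases i <;> fin_cases j <;> simp [xm, Matrix.mul_apply, Fin.sum_univ_two]
      rw [ZMod.natCast_val] at hk
      linear_combination hk
    have e : δ = Tk * D (t : ZMod q) * Tk⁻¹ := by
      refine Subtype.ext (Subtype.ext (xm_cancel hq0 (u := t) ?_))
      rw [← hδ, hT, Subgroup.coe_mul, Subgroup.coe_mul, Subgroup.coe_inv]
      simp only [Matrix.SpecialLinearGroup.coe_mul, Matrix.mul_assoc]
      rw [← Matrix.mul_assoc ((Tk : SL(2, ℤ))⁻¹).1, ← Matrix.SpecialLinearGroup.coe_mul,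
        inv_mul_cancel, Matrix.SpecialLinearGroup.coe_one, Matrix.one_mul, hD]
    rw [e, hv_mul, hv_mul, hv_inv]
    show _ = hv z (D _)
    abel
  have key : ∀ w : ZMod q, ∑ u : ZMod q, η u * B (u + w) = 0 := by
    intro w
    have hxm : x ∈ GamH (M * q * q) (Hsq (M * q) (Hsq M H q) q) := Gamma_le_GamH hx
    obtain ⟨Y, hY, -, hYe⟩ := exists_shift (M := M * q) (H := Hsq M H q) hq0 (dvd_mul_left q M)
      (n := 1) (X := x.1) (H₂ := Hsq (M * q) (Hsq M H q) q) (u := (w.val : ℤ)) (v := (w.val : ℤ))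
      hxm (Dl_cast hxm inf_le_left)
      (gamH_sq_dvd (M := M * q) (H := Hsq M H q) ⟨x, hxm⟩ _)
    obtain ⟨x', hx', rfl⟩ := Dl.toGamH hY
    have h := DFunLike.congr_fun h0 (Additive.ofMul ⟨x', hx'⟩)
    rw [tw_apply, AddMonoidHom.finsetSum_apply] at h
    refine Eq.trans (Finset.sum_congr rfl fun u _ => ?_) h
    obtain ⟨Y', hY', -, hYe'⟩ := exists_shift (H := H) hq0 (Fact.out : q ∣ M) hx'
      (Dl_cast hx' inf_le_left) (gamH_sq_dvd ⟨x', hx'⟩ (u.val : ℤ))
    obtain ⟨δ, hδ, rfl⟩ := Dl.toGamH hY'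
    show η u * B (u + w) = η u * hv ((beta M H q (u.val : ℤ)).act z) ⟨x', hx'⟩
    rw [beta_apply (u.val : ℤ) z ⟨x', hx'⟩ ⟨δ, hδ⟩ hYe']
    congr 1
    rw [hB ((u.val : ℤ) + w.val) ⟨δ, hδ⟩ ?_, Int.cast_add, val_cast, val_cast]
    refine smul_right_injective MatZ (Int.natCast_ne_zero.2 hq0) ?_
    show (q : ℤ) • (xm q ((u.val : ℤ) + w.val) * x.1) = (q : ℤ) • (δ.1 * xm q ((u.val : ℤ) + w.val))
    rw [← Matrix.smul_mul, ← xm_mul, Matrix.mul_assoc, hYe, ← Matrix.mul_assoc, hYe',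
      Matrix.mul_assoc, xm_mul, Matrix.mul_smul]
  have hconst : ∀ s : ZMod q, (q : A) * B s = ∑ t, B t := by
    intro s
    have hJ : ∀ t : ZMod q, ∑ u : ZMod q, η u * η⁻¹ (t - u) =
        η (-1) * (if t = 0 then (q : A) - 1 else -1) := by
      intro t
      have hm : η⁻¹ (-1) = η (-1) := by
        have h2 : η (-1) * η (-1) = 1 := by rw [← map_mul, neg_one_mul, neg_neg, map_one]
        calc η⁻¹ (-1) = η⁻¹ (-1) * (η (-1) * η (-1)) := by rw [h2, mul_one]
          _ = (η⁻¹ * η) (-1) * η (-1) := by rw [MulChar.mul_apply, mul_assoc]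
          _ = η (-1) := by
            rw [inv_mul_cancel, show (-1 : ZMod q) = ((-1 : (ZMod q)ˣ) : ZMod q) by simp,
              MulChar.one_apply_coe, one_mul]
      split_ifs with ht
      · subst ht
        simp only [zero_sub]
        have : ∀ u : ZMod q, η u * η⁻¹ (-u) = η (-1) * (1 : MulChar (ZMod q) A) u := fun u => by
          rw [← mul_inv_cancel η, MulChar.mul_apply, show -u = -1 * u by rw [neg_one_mul], map_mul,
            hm]
          ring
        simp only [this, ← Finset.mul_sum]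
        congr 1
        rw [MulChar.sum_one_eq_card_units, Fintype.card_units, ZMod.card,
          Nat.cast_sub hq.out.one_lt.le, Nat.cast_one]
      · rw [← Equiv.sum_comp (Equiv.mulLeft₀ t ht) (fun u => η u * η⁻¹ (t - u))]
        have : ∀ u : ZMod q, η (Equiv.mulLeft₀ t ht u) * η⁻¹ (t - Equiv.mulLeft₀ t ht u) =
            η u * η⁻¹ (1 - u) := fun u => by
          rw [Equiv.mulLeft₀_apply, show t - t * u = t * (1 - u) by ring, map_mul, map_mul]
          have h1 : η t * η⁻¹ t = 1 := by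
            rw [← MulChar.mul_apply, mul_inv_cancel]
            exact MulChar.one_apply (isUnit_iff_ne_zero.2 ht)
          linear_combination (η u * η⁻¹ (1 - u)) * h1
        simp only [this]
        rw [mul_neg_one]
        exact jacobiSum_nontrivial_inv hη
    have h : ∑ w : ZMod q, η⁻¹ w * ∑ u, η u * B (u + w + s) = 0 :=
      Finset.sum_eq_zero fun w _ => by
        rw [show (∑ u, η u * B (u + w + s)) = ∑ u, η u * B (u + (w + s)) from
          Finset.sum_congr rfl fun u _ => by rw [add_assoc], key, mul_zero]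
    have h' : ∑ t : ZMod q, B (t + s) * ∑ u, η u * η⁻¹ (t - u) = 0 := by
      rw [← h]
      simp only [Finset.mul_sum]
      rw [Finset.sum_comm]
      conv_rhs => rw [Finset.sum_comm]
      refine Finset.sum_congr rfl fun u _ => ?_
      rw [← Equiv.sum_comp (Equiv.addLeft u) (fun t => B (t + s) * (η u * η⁻¹ (t - u)))]
      refine Finset.sum_congr rfl fun w _ => ?_
      simp only [Equiv.coe_addLeft, add_sub_cancel_left]
      ring
    simp only [hJ] at h'
    have h'' : η (-1) * ((q : A) * B s - ∑ t, B t) = 0 := by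
      rw [← h', ← Equiv.sum_comp (Equiv.addRight s) B]
      simp only [Equiv.coe_addRight, mul_sub, Finset.mul_sum]
      rw [← Finset.add_sum_erase _ _ (Finset.mem_univ (0 : ZMod q)),
        ← Finset.add_sum_erase _ (fun t => B (t + s) * (η (-1) * _)) (Finset.mem_univ (0 : ZMod q)),
        zero_add, if_pos rfl,
        Finset.sum_congr rfl fun t (ht : t ∈ Finset.univ.erase (0 : ZMod q)) =>
          show B (t + s) * (η (-1) * if t = 0 then (q : A) - 1 else -1) = -(η (-1) * B (t + s)) by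
            rw [if_neg (Finset.ne_of_mem_erase ht)]; ring, Finset.sum_neg_distrib]
      ring
    have hne : η (-1) ≠ 0 := fun h0 => by
      have h2 : η (-1) * η (-1) = 1 := by rw [← map_mul, neg_one_mul, neg_neg, map_one]
      rw [h0, mul_zero] at h2
      exact zero_ne_one h2
    exact sub_eq_zero.1 ((mul_eq_zero.1 h'').resolve_left hne)
  have hqA : (q : A) ≠ 0 := Nat.cast_ne_zero.2 hq0
  have e : B (1 : ZMod q) = B 0 := mul_left_cancel₀ hqA ((hconst 1).trans (hconst 0).symm)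
  rw [hB 1 δ₁ h1, hB 0 δ₀ ?_, Int.cast_one, Int.cast_zero, e]
  rw [← h0']
  ext i j
  fin_cases i <;> fin_cases j <;> simp [xm, Matrix.mul_apply, Fin.sum_univ_two, mul_comm]

end injective

end FA.Twist
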